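import Fermat.Agent.Forms3.RepresentationBound
import Mathlib.NumberTheory.NumberField.ClassNumber
import Mathlib.NumberTheory.NumberField.Discriminant.Different

/-!
# Classes coming from proper subfields

An ideal `I` of `F ⊆ K` that is a square `J ^ 2` in `K` is `A ^ 2 B` with `B ∣ discr K`, so the
class of `J` is fixed by the class of `A` and by `B`: there are at most `h_F · τ (discr K) ^ n` of
them, and `|d_F| ^ [K : F] ≤ |d_K|`.
-/

set_option autoImplicit false
set_option linter.style.haveILetI false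

noncomputable section

namespace FA.TwoTorsionBound

open NumberField Module UniqueFactorizationMonoid IntermediateField
open scoped nonZeroDivisors

/-- A finite set of size at most `N` holds all divisors of `a`. -/
def FewDivisors {M : Type*} [CommMonoid M] (a : M) (N : ℕ) : Prop :=
  ∃ t : Finset M, t.card ≤ N ∧ ∀ x, x ∣ a → x ∈ t

theorem FewDivisors.mul {M : Type*} [CommMonoid M] [DecompositionMonoid M] {a b : M} {A B : ℕ}
    (ha : FewDivisors a A) (hb : FewDivisors b B) : FewDivisors (a * b) (A * B) := by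
  classical
  obtain ⟨s, hs, hs'⟩ := ha
  obtain ⟨t, ht, ht'⟩ := hb
  refine ⟨Finset.image₂ (· * ·) s t, (Finset.card_image₂_le _ _ _).trans (Nat.mul_le_mul hs ht),
    fun x hx => ?_⟩
  obtain ⟨u, v, hu, hv, rfl⟩ := exists_dvd_and_dvd_of_dvd_mul hx
  exact Finset.mem_image₂_of_mem (hs' u hu) (ht' v hv)

variable (K : Type) [Field K] [NumberField K]

theorem fewDivisors_prime_pow {p k : ℕ} (hp : p.Prime) :
    FewDivisors (Ideal.span {((p ^ k : ℕ) : 𝓞 K)}) ((k + 1) ^ finrank ℚ K) := by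
  classical
  have hp0 : Ideal.span {(p : 𝓞 K)} ≠ ⊥ := by simpa using hp.ne_zero
  obtain ⟨s, hs⟩ : ∃ s, s = normalizedFactors (Ideal.span {(p : 𝓞 K)}) := ⟨_, rfl⟩
  have hprod : s.prod = Ideal.span {(p : 𝓞 K)} := hs ▸ Ideal.prod_normalizedFactors_eq_self hp0
  have hcard : Multiset.card s ≤ finrank ℚ K := by
    have h1 : p ^ Multiset.card (s.map Ideal.absNorm) ≤ (s.map Ideal.absNorm).prod := by
      refine Multiset.pow_card_le_prod fun x hx => ?_
      obtain ⟨Q, hQ, rfl⟩ := Multiset.mem_map.1 hx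
      have hQp := prime_of_normalized_factor Q (hs ▸ hQ)
      have hne : Ideal.absNorm Q ≠ 1 := fun h =>
        hQp.not_isUnit (Ideal.isUnit_iff.2 (Ideal.absNorm_eq_one_iff.1 h))
      have hdvd : Ideal.absNorm Q ∣ p ^ finrank ℚ K := by
        have h := map_dvd Ideal.absNorm (dvd_of_mem_normalizedFactors (hs ▸ hQ))
        rwa [Ideal.absNorm_span_singleton,
          show ((p : 𝓞 K)) = algebraMap ℤ (𝓞 K) (p : ℤ) by simp, Algebra.norm_algebraMap,
          RingOfIntegers.rank, Int.natAbs_pow, Int.natAbs_natCast] at h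
      obtain ⟨f, -, hf⟩ := (Nat.dvd_prime_pow hp).1 hdvd
      rw [hf] at hne ⊢
      exact Nat.le_self_pow (fun h => hne (by rw [h, pow_zero])) p
    rw [Multiset.card_map, ← map_multiset_prod, hprod, Ideal.absNorm_span_singleton,
      show ((p : 𝓞 K)) = algebraMap ℤ (𝓞 K) (p : ℤ) by simp, Algebra.norm_algebraMap,
      RingOfIntegers.rank, Int.natAbs_pow, Int.natAbs_natCast] at h1
    exact (Nat.pow_le_pow_iff_right hp.one_lt).1 h1
  have key : ∀ t : Multiset (Ideal (𝓞 K)), (∀ Q ∈ t, Prime Q) →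
      FewDivisors (t.prod ^ k) ((k + 1) ^ Multiset.card t) := fun t ht => by
    induction t using Multiset.induction_on with
    | empty =>
      refine ⟨{1}, by simp, fun x hx => ?_⟩
      rw [Multiset.prod_zero, one_pow, ← isUnit_iff_dvd_one, isUnit_iff_eq_one] at hx
      simpa using hx
    | cons Q t ih =>
      rw [Multiset.prod_cons, mul_pow, Multiset.card_cons, pow_succ']
      refine FewDivisors.mul ⟨(Finset.range (k + 1)).image (Q ^ ·),
        Finset.card_image_le.trans (Finset.card_range _).le, fun x hx => ?_⟩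
        (ih fun R hR => ht R (Multiset.mem_cons_of_mem hR))
      obtain ⟨i, hi, hx'⟩ := (_root_.dvd_prime_pow (ht Q (Multiset.mem_cons_self _ _)) k).1 hx
      exact Finset.mem_image.2 ⟨i, Finset.mem_range.2 (by omega), (associated_iff_eq.1 hx').symm⟩
  obtain ⟨t, ht, ht'⟩ := key s fun Q hQ => prime_of_normalized_factor Q (hs ▸ hQ)
  refine ⟨t, ht.trans (Nat.pow_le_pow_right k.succ_pos hcard), fun x hx => ht' x ?_⟩
  rwa [hprod, Ideal.span_singleton_pow, ← Nat.cast_pow]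

/-- **The divisors of a rational integer.** -/
theorem fewDivisors_natCast {j : ℕ} (hj : j ≠ 0) :
    FewDivisors (Ideal.span {(j : 𝓞 K)}) (j.divisors.card ^ finrank ℚ K) := by
  induction j using Nat.recOnPrimeCoprime with
  | zero => exact absurd rfl hj
  | prime_pow p k hp =>
    rw [Nat.divisors_prime_pow hp, Finset.card_map, Finset.card_range]
    exact fewDivisors_prime_pow K hp
  | coprime a b ha hb hab iha ihb =>
    rw [Nat.cast_mul, ← Ideal.span_singleton_mul_span_singleton, hab.card_divisors_mul, mul_pow]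
    exact FewDivisors.mul (iha (by omega)) (ihb (by omega))

theorem absNorm_M_le (d : ℕ) (hd : finrank ℚ K = d) :
    (4 / Real.pi) ^ InfinitePlace.nrComplexPlaces K *
      ((Nat.factorial (finrank ℚ K) : ℝ) / (finrank ℚ K : ℝ) ^ (finrank ℚ K) *
        Real.sqrt |(discr K : ℝ)|) ≤ 2 ^ d * Real.sqrt |(discr K : ℝ)| := by
  have hr : InfinitePlace.nrComplexPlaces K ≤ d := by
    rw [← hd, ← InfinitePlace.card_add_two_mul_card_eq_rank]
    omega
  rw [hd]
  refine mul_le_mul ?_ (mul_le_of_le_one_left (Real.sqrt_nonneg _) ?_) (by positivity)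
    (by positivity)
  · refine (pow_le_pow_left₀ (by positivity) ?_ _).trans (pow_le_pow_right₀ one_le_two hr)
    rw [div_le_iff₀ Real.pi_pos]
    linarith [Real.two_le_pi]
  · refine div_le_one_of_le₀ ?_ (by positivity)
    exact_mod_cast Nat.factorial_le_pow d

/-- **The class number is `O (|d| ^ (1/2 + ε))`.** -/
theorem exists_classNumber_le (d : ℕ) {ε : ℝ} (hε : 0 < ε) : ∃ C : ℝ, 0 ≤ C ∧
    ∀ (F : Type) [Field F] [NumberField F], finrank ℚ F = d →
      (classNumber F : ℝ) ≤ C * |(discr F : ℝ)| ^ ((1 : ℝ) / 2 + ε) := by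
  obtain ⟨c, hc, hdiv⟩ := FA.RepresentationBound.card_divisors_isBigO (ε / (d + 1)) (by positivity)
  refine ⟨c ^ d * ((2 : ℝ) ^ d) ^ (1 + ε), by positivity, fun F _ _ hd => ?_⟩
  classical
  obtain ⟨R, hR⟩ : ∃ R, R = 2 ^ d * Real.sqrt |(discr F : ℝ)| := ⟨_, rfl⟩
  have hD : (1 : ℝ) ≤ |(discr F : ℝ)| := by
    rw [← Int.cast_abs]
    exact_mod_cast Int.one_le_abs (discr_ne_zero F)
  have hR1 : 1 ≤ R := hR ▸ one_le_mul_of_one_le_of_one_le (one_le_pow₀ one_le_two)
    (Real.one_le_sqrt.2 hD)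
  have hall := fun j : ℕ => fun hj : j ≠ 0 => fewDivisors_natCast F (j := j) hj
  simp only [FewDivisors] at hall
  choose! t ht ht' using hall
  obtain ⟨T, hT⟩ : ∃ T, T = (Finset.Icc 1 ⌊R⌋₊).biUnion t := ⟨_, rfl⟩
  have hcover : ∀ cl : ClassGroup (𝓞 F), ∃ I ∈ T, ∃ h : I ∈ (Ideal (𝓞 F))⁰,
      ClassGroup.mk0 ⟨I, h⟩ = cl := fun cl => by
    obtain ⟨I, hI, hN⟩ := NumberField.exists_ideal_in_class_of_norm_le cl
    have h1 := Ideal.absNorm_ne_zero_of_nonZeroDivisors I
    refine ⟨I, hT ▸ Finset.mem_biUnion.2 ⟨Ideal.absNorm (I : Ideal (𝓞 F)), Finset.mem_Icc.2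
      ⟨Nat.one_le_iff_ne_zero.2 h1, Nat.le_floor (hN.trans (hR ▸ absNorm_M_le F d hd))⟩, ?_⟩, I.2,
      hI⟩
    exact ht' _ h1 _ (Ideal.dvd_span_singleton.2 (Ideal.absNorm_mem _))
  have hcard : classNumber F ≤ T.card := by
    choose I hIT hI hcl using hcover
    rw [classNumber, ← Finset.card_univ]
    refine Finset.card_le_card_of_injOn I (fun cl _ => hIT cl) fun a _ b _ h => ?_
    rw [← hcl a, ← hcl b]
    exact congrArg ClassGroup.mk0 (Subtype.ext h)
  have hbound : ∀ j ∈ Finset.Icc 1 ⌊R⌋₊, ((t j).card : ℝ) ≤ c ^ d * R ^ ε := fun j hj => by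
    rw [Finset.mem_Icc] at hj
    have hj0 : j ≠ 0 := by omega
    refine (Nat.cast_le.2 (ht j hj0)).trans ?_
    rw [hd, Nat.cast_pow]
    refine (pow_le_pow_left₀ (Nat.cast_nonneg _) (hdiv j hj0) d).trans ?_
    rw [mul_pow, ← Real.rpow_natCast (_ ^ _), ← Real.rpow_mul (Nat.cast_nonneg _)]
    refine mul_le_mul_of_nonneg_left ((Real.rpow_le_rpow (Nat.cast_nonneg _)
      ((Nat.cast_le.2 hj.2).trans (Nat.floor_le (by linarith))) (by positivity)).trans
      (Real.rpow_le_rpow_of_exponent_le hR1 ?_)) (by positivity)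
    rw [div_mul_eq_mul_div, div_le_iff₀ (by positivity)]
    nlinarith
  calc (classNumber F : ℝ) ≤ ∑ j ∈ Finset.Icc 1 ⌊R⌋₊, ((t j).card : ℝ) := by
        exact_mod_cast hcard.trans (hT ▸ Finset.card_biUnion_le)
    _ ≤ ∑ _j ∈ Finset.Icc 1 ⌊R⌋₊, c ^ d * R ^ ε := Finset.sum_le_sum hbound
    _ ≤ R * (c ^ d * R ^ ε) := by
        rw [Finset.sum_const, Nat.card_Icc, Nat.add_sub_cancel, nsmul_eq_mul]
        exact mul_le_mul_of_nonneg_right (Nat.floor_le (by linarith)) (by positivity)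
    _ = c ^ d * R ^ (1 + ε) := by
        rw [Real.rpow_add (by linarith), Real.rpow_one]; ring
    _ ≤ _ := by
        rw [hR, Real.mul_rpow (by positivity) (Real.sqrt_nonneg _), Real.sqrt_eq_rpow,
          ← Real.rpow_mul (abs_nonneg _), mul_assoc]
        refine mul_le_mul_of_nonneg_left (mul_le_mul_of_nonneg_left
          (Real.rpow_le_rpow_of_exponent_le hD ?_) (by positivity)) (by positivity)
        linarith

variable {K} (F : IntermediateField ℚ K)

/-- **An ideal of a subfield that becomes a square.** -/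
theorem exists_decomposition (J : Ideal (𝓞 K)) (hJ : J ≠ 0) (I : Ideal (𝓞 F))
    (h : I.map (algebraMap (𝓞 F) (𝓞 K)) = J ^ 2) :
    ∃ (A B : Ideal (𝓞 F)) (E : Ideal (𝓞 K)), B ∣ Ideal.span {((discr K).natAbs : 𝓞 F)} ∧
      B.map (algebraMap (𝓞 F) (𝓞 K)) = E ^ 2 ∧ J = A.map (algebraMap (𝓞 F) (𝓞 K)) * E := by
  classical
  have hinj : Function.Injective (algebraMap (𝓞 F) (𝓞 K)) := FaithfulSMul.algebraMap_injective _ _
  induction I using WellFoundedGT.induction generalizing J with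
  | ind I ih => ?_
  have hI : I ≠ ⊥ := fun e => pow_ne_zero 2 hJ (by rw [← h, e, Ideal.map_bot]; rfl)
  by_cases hsq : ∃ P : Ideal (𝓞 F), Prime P ∧ P ^ 2 ∣ I
  · obtain ⟨P, hP, I', rfl⟩ := hsq
    rw [Ideal.map_mul, Ideal.map_pow] at h
    have hP0 : P.map (algebraMap (𝓞 F) (𝓞 K)) ≠ 0 :=
      fun e => hP.ne_zero ((Ideal.map_eq_bot_iff_of_injective hinj).1 e)
    obtain ⟨J', rfl⟩ : P.map (algebraMap (𝓞 F) (𝓞 K)) ∣ J :=
      (pow_dvd_pow_iff_dvd two_ne_zero).1 ⟨_, h.symm⟩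
    rw [mul_pow] at h
    have hlt : P ^ 2 * I' < I' := lt_of_le_of_ne Ideal.mul_le_right fun e => hP.not_isUnit <|
      IsUnit.of_mul_eq_one P (by
        rw [← pow_two]
        exact mul_right_cancel₀ (fun e' => hI (by rw [e', mul_zero]; rfl)) (e.trans (one_mul _).symm))
    obtain ⟨A, B, E, hB, hBE, hAE⟩ :=
      ih I' hlt J' (fun e => hJ (by rw [e, mul_zero])) (mul_left_cancel₀ (pow_ne_zero 2 hP0) h)
    exact ⟨P * A, B, E, hB, hBE, by rw [hAE, Ideal.map_mul, mul_assoc]⟩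
  · push Not at hsq
    refine ⟨1, I, J, ?_, h, by rw [Ideal.one_eq_top, Ideal.map_top, ← Ideal.one_eq_top, one_mul]⟩
    have hnodup : (normalizedFactors I).Nodup := by
      refine (squarefree_iff_nodup_normalizedFactors hI).1 fun x hx => ?_
      by_contra hxu
      obtain ⟨P, hP, hPx⟩ := WfDvdMonoid.exists_irreducible_factor hxu
        (fun e => hI (by rw [e, zero_mul, zero_dvd_iff] at hx; exact hx))
      exact hsq P hP.prime ((pow_dvd_pow_of_dvd hPx 2).trans (by rwa [pow_two]))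
    have hprod := Ideal.prod_normalizedFactors_eq_self hI
    have heq : (normalizedFactors I).prod = ∏ P ∈ (⟨_, hnodup⟩ : Finset (Ideal (𝓞 F))), P :=
      by rw [Finset.prod_eq_multiset_prod, Multiset.map_id']
    rw [← hprod, heq]
    refine Finset.prod_primes_dvd _ (fun P hP => prime_of_normalized_factor P hP) fun P hP => ?_
    have hPp : Prime P := prime_of_normalized_factor P hP
    have hPI : P ∣ I := dvd_of_mem_normalizedFactors hP
    haveI hPprime : P.IsPrime := Ideal.isPrime_of_prime hPp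
    obtain ⟨Q, hQ, hQP⟩ : ∃ Q : Ideal (𝓞 K), Q.IsPrime ∧ Q.comap (algebraMap (𝓞 F) (𝓞 K)) = P := by
      haveI := hPprime.isMaximal hPp.ne_zero
      obtain ⟨Q, hQ, hQ'⟩ := Ideal.exists_maximal_ideal_liesOver_of_isIntegral (S := 𝓞 K) P
      exact ⟨Q, hQ.isPrime, hQ'.over.symm⟩
    haveI := hQ
    have hQd : Q ∣ P.map (algebraMap (𝓞 F) (𝓞 K)) :=
      Ideal.dvd_iff_le.2 (Ideal.map_le_iff_le_comap.2 hQP.ge)
    have hQ0 : Q ≠ ⊥ := fun e => hPp.ne_zero (by
      rw [← hQP, e, Ideal.comap_bot_of_injective _ hinj]; rfl)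
    have hQprime : Prime Q := Ideal.prime_of_isPrime hQ0 hQ
    obtain ⟨I₁, rfl⟩ := hPI
    rw [Ideal.map_mul] at h
    have hQ2 : Q ^ 2 ∣ P.map (algebraMap (𝓞 F) (𝓞 K)) := by
      refine hQprime.pow_dvd_of_dvd_mul_right 2 ?_
        (h ▸ pow_dvd_pow_of_dvd (hQprime.dvd_of_dvd_pow (h ▸ hQd.mul_right _)) 2)
      intro hdvd
      rw [Ideal.dvd_iff_le, Ideal.map_le_iff_le_comap, hQP, ← Ideal.dvd_iff_le] at hdvd
      exact hsq P hPp (by rw [pow_two]; exact mul_dvd_mul_left P hdvd)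
    have hle : (P.under ℤ).map (algebraMap ℤ (𝓞 K)) ≤ P.map (algebraMap (𝓞 F) (𝓞 K)) := by
      rw [IsScalarTower.algebraMap_eq ℤ (𝓞 F) (𝓞 K), ← Ideal.map_map]
      exact Ideal.map_mono Ideal.map_comap_le
    haveI : (P.under ℤ).IsMaximal :=
      haveI := hPprime.isMaximal hPp.ne_zero
      Ideal.IsMaximal.under ℤ P
    have hdiff : Q ∣ differentIdeal ℤ (𝓞 K) := by
      simpa using pow_sub_one_dvd_differentIdeal ℤ Q 2
        (fun e => hPp.ne_zero (Ideal.eq_bot_of_comap_eq_bot e))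
        (hQ2.trans (Ideal.dvd_iff_le.2 hle))
    have hmem := Ideal.dvd_iff_le.1 hdiff (discr_mem_differentIdeal K (𝓞 K))
    rw [Ideal.dvd_span_singleton, ← hQP, Ideal.mem_comap, map_natCast]
    rcases Int.natAbs_eq (discr K) with e | e
    · rwa [e, Int.cast_natCast] at hmem
    · rwa [e, Int.cast_neg, neg_mem_iff, Int.cast_natCast] at hmem

/-- Equal classes of `A` and equal `B` give the same class of `J`. -/
theorem mk0_eq_of_decomposition {J J' : (Ideal (𝓞 K))⁰} {A A' : (Ideal (𝓞 F))⁰}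
    {B : Ideal (𝓞 F)} {E E' : Ideal (𝓞 K)}
    (hJ : (J : Ideal (𝓞 K)) = (A : Ideal (𝓞 F)).map (algebraMap (𝓞 F) (𝓞 K)) * E)
    (hJ' : (J' : Ideal (𝓞 K)) = (A' : Ideal (𝓞 F)).map (algebraMap (𝓞 F) (𝓞 K)) * E')
    (hE : B.map (algebraMap (𝓞 F) (𝓞 K)) = E ^ 2) (hE' : B.map (algebraMap (𝓞 F) (𝓞 K)) = E' ^ 2)
    (h : ClassGroup.mk0 A = ClassGroup.mk0 A') : ClassGroup.mk0 J = ClassGroup.mk0 J' := by
  obtain rfl : E = E' := dvd_antisymm ((pow_dvd_pow_iff_dvd two_ne_zero).1 (hE ▸ hE'.dvd))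
    ((pow_dvd_pow_iff_dvd two_ne_zero).1 (hE' ▸ hE.dvd))
  obtain ⟨x, y, hx, hy, hxy⟩ := ClassGroup.mk0_eq_mk0_iff.1 h
  have hinj : Function.Injective (algebraMap (𝓞 F) (𝓞 K)) := FaithfulSMul.algebraMap_injective _ _
  refine ClassGroup.mk0_eq_mk0_iff.2 ⟨algebraMap _ _ x, algebraMap _ _ y,
    fun e => hx (hinj (by rwa [map_zero])), fun e => hy (hinj (by rwa [map_zero])), ?_⟩
  have e := congrArg (Ideal.map (algebraMap (𝓞 F) (𝓞 K))) hxy
  rw [Ideal.map_mul, Ideal.map_mul, Ideal.map_span, Ideal.map_span, Set.image_singleton,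
    Set.image_singleton] at e
  rw [hJ, hJ', ← mul_assoc, ← mul_assoc, e]

theorem sq_natAbs_discr_le (hF : F ≠ ⊤) : (discr F).natAbs ^ 2 ≤ (discr K).natAbs := by
  rw [natAbs_discr_eq_absNorm_differentIdeal_mul_natAbs_discr_pow F (𝓞 F) K (𝓞 K)]
  refine le_trans (Nat.pow_le_pow_right (Int.natAbs_pos.2 (discr_ne_zero F)) ?_)
    (Nat.le_mul_of_pos_left _ (Nat.pos_of_ne_zero fun e => ?_))
  · by_contra hk
    refine hF (IntermediateField.finrank_eq_one_iff_eq_top.1 ?_)
    have := Module.finrank_pos (R := F) (M := K)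
    omega
  · have := natAbs_discr_eq_absNorm_differentIdeal_mul_natAbs_discr_pow F (𝓞 F) K (𝓞 K)
    rw [e, zero_mul, Int.natAbs_eq_zero] at this
    exact discr_ne_zero K this

/-- The subfields are no more than the sets of embeddings. -/
theorem exists_card_intermediateField_le :
    ∃ _ : Fintype (IntermediateField ℚ K),
      Fintype.card (IntermediateField ℚ K) ≤ 2 ^ finrank ℚ K := by
  classical
  obtain ⟨φ₀⟩ : Nonempty (K →ₐ[ℚ] ℂ) := ⟨IsAlgClosed.lift⟩
  obtain ⟨g, hg⟩ : ∃ g : IntermediateField ℚ K → Finset (K →ₐ[ℚ] ℂ),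
      ∀ F, g F = Finset.univ.filter fun φ => ∀ x ∈ F, φ x = φ₀ x :=
    ⟨_, fun _ => rfl⟩
  have hsub : ∀ F G, g F = g G → ∀ x ∈ G, x ∈ F := fun F G hFG x hx => by
    letI : Algebra F ℂ := ((φ₀.comp F.val).toRingHom).toAlgebra
    have hval : ∀ ψ : K →ₐ[F] ℂ, ψ x = φ₀ x := fun ψ => by
      have hmem : (⟨(ψ : K →+* ℂ), fun q => by simp⟩ : K →ₐ[ℚ] ℂ) ∈ g F := by
        rw [hg, Finset.mem_filter]
        exact ⟨Finset.mem_univ _, fun z hz => ψ.commutes ⟨z, hz⟩⟩
      rw [hFG, hg, Finset.mem_filter] at hmem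
      exact hmem.2 x hx
    have htr := trace_eq_sum_embeddings ℂ (K := F) (x := x)
    rw [Finset.sum_congr rfl fun ψ _ => hval ψ, Finset.sum_const, Finset.card_univ,
      AlgHom.card, nsmul_eq_mul] at htr
    have hk : (finrank F K : ℂ) ≠ 0 := Nat.cast_ne_zero.2 Module.finrank_pos.ne'
    have : φ₀ x = φ₀ ((Algebra.trace F K x : K) / finrank F K) := by
      rw [map_div₀, map_natCast, eq_div_iff hk, mul_comm]
      exact htr.symm
    rw [φ₀.injective this]
    exact F.div_mem (Algebra.trace F K x).2 (IntermediateField.natCast_mem F _)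
  have hinj : Function.Injective g := fun F G h =>
    le_antisymm (hsub G F h.symm) (hsub F G h)
  refine ⟨@Fintype.ofFinite _ (Finite.of_injective g hinj), ?_⟩
  letI := @Fintype.ofFinite _ (Finite.of_injective g hinj)
  refine (Fintype.card_le_of_injective g hinj).trans_eq ?_
  rw [Fintype.card_finset, AlgHom.card]

end FA.TwoTorsionBound

end
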