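import Fermat.Agent.ThinSets.Sieve
import Fermat.Agent.HyperellipticWeil.Main
import Mathlib.NumberTheory.Chebyshev
import Mathlib.RingTheory.Polynomial.Resultant.Basic
import Mathlib.LinearAlgebra.Matrix.AbsoluteValue

/-!
# Square values of a polynomial

A monic irreducible `f` of degree `m` with coefficients at most `H` takes `± y ^ 2` at
`O (√L log L (1 + log H))` of the integers in `(0, L]`: at the primes not dividing its resultant at
most three quarters of the classes give a square (Weil), and the large sieve applies.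
-/

set_option autoImplicit false

noncomputable section

namespace FA.TwoTorsionBound

open Polynomial

theorem card_square_classes {p m : ℕ} [Fact p.Prime] (hp : (4 * m + 3) ^ 2 ≤ p) {g : (ZMod p)[X]}
    (hsq : Squarefree g) (hd : g.natDegree = m) (hm : 1 ≤ m) :
    ((Finset.univ.filter fun x : ZMod p => IsSquare (g.eval x)).card : ℝ) ≤ 3 / 4 * p := by
  classical
  have hp2 : ringChar (ZMod p) ≠ 2 := by
    rw [ZMod.ringChar_zmod_n]
    nlinarith
  have hW := (abs_le.1 (HyperellipticWeil.abs_sum_quadraticChar_le hp2 hsq (hd ▸ hm))).2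
  rw [ZMod.card, hd] at hW
  have hzero : ((Finset.univ.filter fun x : ZMod p => g.eval x = 0).card : ℝ) ≤ m := by
    refine Nat.cast_le.2 (le_trans (Finset.card_le_card fun x hx => ?_)
      ((Multiset.toFinset_card_le _).trans ((card_roots' g).trans hd.le)))
    rw [Multiset.mem_toFinset, mem_roots hsq.ne_zero, IsRoot]
    exact (Finset.mem_filter.1 hx).2
  have hpt : ∀ x : ZMod p, 2 * (if IsSquare (g.eval x) then (1 : ℝ) else 0) ≤
      1 + (quadraticChar (ZMod p) (g.eval x) : ℝ) + (if g.eval x = 0 then (1 : ℝ) else 0) := by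
    intro x
    by_cases h0 : g.eval x = 0
    · rw [h0, if_pos rfl, if_pos (IsSquare.zero (α := ZMod p)), quadraticChar_zero]
      norm_num
    · rw [if_neg h0, add_zero]
      by_cases hs : IsSquare (g.eval x)
      · rw [if_pos hs, (quadraticChar_one_iff_isSquare h0).2 hs]
        norm_num
      · rw [if_neg hs, quadraticChar_neg_one_iff_not_isSquare.2 hs]
        norm_num
  have hsum := Finset.sum_le_sum fun x (_ : x ∈ (Finset.univ : Finset (ZMod p))) => hpt x
  rw [← Finset.mul_sum, Finset.sum_boole, Finset.sum_add_distrib, Finset.sum_add_distrib,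
    Finset.sum_const, Finset.card_univ, ZMod.card, nsmul_one, Finset.sum_boole] at hsum
  have hp' : (4 * (m : ℝ) + 3) ≤ Real.sqrt p := Real.le_sqrt_of_sq_le (by exact_mod_cast hp)
  have hpp : Real.sqrt p * Real.sqrt p = p := Real.mul_self_sqrt (Nat.cast_nonneg p)
  have hm' : ((m - 1 : ℕ) : ℝ) ≤ m := Nat.cast_le.2 (Nat.sub_le m 1)
  nlinarith [mul_le_mul_of_nonneg_right hm' (Real.sqrt_nonneg (p : ℝ)),
    mul_le_mul_of_nonneg_right hp' (Real.sqrt_nonneg (p : ℝ)), Real.sqrt_nonneg (p : ℝ)]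

theorem squarefree_mod {p : ℕ} [Fact p.Prime] {f U V : ℤ[X]} {e : ℤ}
    (hUV : f * U + derivative f * V = C e) (he : (e : ZMod p) ≠ 0) :
    Squarefree (f.map (Int.castRingHom (ZMod p))) := by
  have h := congrArg (Polynomial.map (Int.castRingHom (ZMod p))) hUV
  rw [Polynomial.map_add, Polynomial.map_mul, Polynomial.map_mul, ← derivative_map,
    Polynomial.map_C, eq_intCast] at h
  refine Separable.squarefree ⟨C (e : ZMod p)⁻¹ * U.map (Int.castRingHom (ZMod p)),
    C (e : ZMod p)⁻¹ * V.map (Int.castRingHom (ZMod p)), ?_⟩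
  rw [mul_assoc, mul_assoc, ← mul_add, mul_comm (U.map _), mul_comm (V.map _), h, ← C_mul,
    inv_mul_cancel₀ he, C_1]

theorem abs_resultant_le {f : ℤ[X]} {m : ℕ} (hd : f.natDegree = m) (hm : 1 ≤ m) {H : ℝ}
    (hH : 1 ≤ H) (hc : ∀ i, |(f.coeff i : ℝ)| ≤ H) :
    |((resultant f (derivative f) : ℤ) : ℝ)| ≤ ((2 * m).factorial : ℝ) * ((m : ℝ) * H) ^ (2 * m) := by
  have hm' : (1 : ℝ) ≤ m := by exact_mod_cast hm
  have hmH : 1 ≤ (m : ℝ) * H := one_le_mul_of_one_le_of_one_le hm' hH
  obtain ⟨k, hk⟩ : ∃ k, k = (derivative f).natDegree := ⟨_, rfl⟩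
  have hk' : k ≤ m := hk ▸ (natDegree_derivative_le f).trans (hd ▸ Nat.sub_le _ _)
  have h := Matrix.det_le (A := sylvester (f.map (Int.castRingHom ℝ))
    ((derivative f).map (Int.castRingHom ℝ)) m k) (abv := AbsoluteValue.abs) (x := (m : ℝ) * H)
    fun i j => ?_
  · rw [← resultant, resultant_map_map, Fintype.card_fin, nsmul_eq_mul, eq_intCast] at h
    rw [hd, ← hk]
    refine h.trans (mul_le_mul (Nat.cast_le.2 (Nat.factorial_le (by omega)))
      (pow_le_pow_right₀ hmH (by omega)) (by positivity) (Nat.cast_nonneg _))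
  · rw [AbsoluteValue.abs_apply, sylvester, Matrix.of_apply]
    induction j using Fin.addCases with
    | left j =>
      rw [Fin.addCases_left]
      split_ifs with hi
      · rw [coeff_map, eq_intCast, coeff_derivative]
        push_cast
        rw [abs_mul]
        rcases lt_or_ge (i.1 - j.1) m with hlt | hge
        · rw [mul_comm, abs_of_nonneg (by positivity : (0 : ℝ) ≤ ((i.1 - j.1 : ℕ) : ℝ) + 1)]
          exact mul_le_mul (by exact_mod_cast hlt) (hc _) (abs_nonneg _) (by linarith)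
        · rw [coeff_eq_zero_of_natDegree_lt (by omega), Int.cast_zero, abs_zero, zero_mul]
          linarith
      · rw [abs_zero]
        linarith
    | right j =>
      rw [Fin.addCases_right]
      split_ifs
      · rw [coeff_map, eq_intCast]
        exact (hc _).trans (le_mul_of_one_le_left (by linarith) hm')
      · rw [abs_zero]
        linarith

theorem card_primeFactors_mul_log_two_le {e : ℕ} (he : e ≠ 0) :
    (e.primeFactors.card : ℝ) * Real.log 2 ≤ Real.log e := by
  rw [← Real.log_pow]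
  refine Real.log_le_log (by positivity) ?_
  have h : 2 ^ e.primeFactors.card ≤ e :=
    (Finset.pow_card_le_prod _ _ _ fun p hp => (Nat.prime_of_mem_primeFactors hp).two_le).trans
      (Nat.le_of_dvd (Nat.pos_of_ne_zero he) (Nat.prod_primeFactors_dvd e))
  exact_mod_cast h

theorem le_primeCount {Q : ℕ} (hQ : 6 ≤ Q) :
    (Q : ℝ) / (4 * Real.log Q) ≤ ((Finset.range (Q + 1)).filter Nat.Prime).card := by
  have h := Chebyshev.pi_ge Q
  rw [Nat.primeCounting, Nat.primeCounting', Nat.count_eq_card_filter_range] at h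
  refine le_trans ?_ h
  have hQ' : (6 : ℝ) ≤ Q := by exact_mod_cast hQ
  have hlQ : 0 < Real.log Q := Real.log_pos (by linarith)
  have hpow : ∀ k, 6 ≤ k → (k + 1) ^ 2 ≤ 2 ^ k := fun k hk => by
    induction k, hk using Nat.le_induction with
    | base => norm_num
    | succ k hk ih =>
      rw [pow_succ 2]
      nlinarith
  have hsq := hpow Q hQ
  have h1 : 2 * Real.log ((Q : ℝ) + 1) ≤ Q * Real.log 2 := by
    rw [← Real.log_pow]
    refine le_trans (le_of_eq ?_) (Real.log_le_log (by positivity)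
      (by exact_mod_cast hsq : ((Q : ℝ) + 1) ^ 2 ≤ (2 : ℝ) ^ Q))
    rw [Real.log_pow, Nat.cast_two]
  rw [div_le_div_iff₀ (by positivity) hlQ]
  nlinarith [mul_le_mul_of_nonneg_left Real.log_two_gt_d9.le (by linarith : (0 : ℝ) ≤ Q),
    mul_le_mul_of_nonneg_right h1 hlQ.le]

/-- **Few square values.** -/
theorem exists_square_values (m : ℕ) : ∃ C : ℝ, 0 ≤ C ∧ ∀ f : ℤ[X], f.Monic → f.natDegree = m →
    Irreducible (f.map (Int.castRingHom ℚ)) → ∀ H : ℝ, 1 ≤ H → (∀ i, |(f.coeff i : ℝ)| ≤ H) →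
      ∀ L : ℕ, 2 ≤ L → ∀ S : Finset ℕ, S ⊆ Finset.Ioc 0 L →
        (∀ t ∈ S, ∃ y : ℤ, f.eval (t : ℤ) = y ^ 2 ∨ f.eval (t : ℤ) = -y ^ 2) →
        (S.card : ℝ) ≤ C * (Real.sqrt L * Real.log L) * (1 + Real.log H) := by
  classical
  obtain ⟨K₁, hK₁⟩ : ∃ K₁ : ℝ, K₁ = ((4 * m + 3) ^ 2 : ℕ) +
      2 * (|Real.log ((2 * m).factorial)| + 2 * m * |Real.log m| + 2 * m) := ⟨_, rfl⟩
  have hK0 : 0 ≤ K₁ := hK₁ ▸ by positivity
  refine ⟨300 + 16 * K₁, by linarith, fun f hf hd hirr H hH hc L hL S hS hval => ?_⟩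
  have hm : 1 ≤ m := by
    have := hirr.natDegree_pos
    rwa [hf.natDegree_map, hd] at this
  have hlH : 0 ≤ Real.log H := Real.log_nonneg hH
  have hL' : (2 : ℝ) ≤ L := by exact_mod_cast hL
  have hl2 : (1 / 2 : ℝ) ≤ Real.log L :=
    le_trans (by linarith [Real.log_two_gt_d9]) (Real.log_le_log two_pos hL')
  have hsL : 0 < Real.sqrt L := Real.sqrt_pos.2 (by linarith)
  have hsL2 : Real.sqrt L * Real.sqrt L = L := Real.mul_self_sqrt (by linarith)
  obtain ⟨e, he⟩ : ∃ e, e = resultant f (derivative f) := ⟨_, rfl⟩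
  have he0 : e ≠ 0 := by
    intro h0
    have h1 : IsCoprime (f.map (Int.castRingHom ℚ)) (derivative (f.map (Int.castRingHom ℚ))) :=
      hirr.separable
    have h2 := resultant_ne_zero _ _ h1
    rw [derivative_map, resultant_map_map, natDegree_map_eq_of_injective Int.cast_injective,
      natDegree_map_eq_of_injective Int.cast_injective, ← he, h0, map_zero] at h2
    exact h2 rfl
  obtain ⟨U, V, -, -, hUV⟩ := exists_mul_add_mul_eq_C_resultant f (derivative f) le_rfl le_rfl
    (Or.inl (by omega))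
  rw [← he] at hUV
  -- the excluded primes
  obtain ⟨X₀, hX₀⟩ : ∃ X₀ : Finset ℕ, X₀ = Finset.range ((4 * m + 3) ^ 2) ∪ e.natAbs.primeFactors :=
    ⟨_, rfl⟩
  have hX₀card : (X₀.card : ℝ) ≤ K₁ * (1 + Real.log H) := by
    have h1 : (X₀.card : ℝ) ≤ ((4 * m + 3) ^ 2 : ℕ) + (e.natAbs.primeFactors.card : ℝ) := by
      rw [hX₀]
      refine (Nat.cast_le.2 (Finset.card_union_le _ _)).trans ?_
      rw [Finset.card_range, Nat.cast_add]
    have h2 := card_primeFactors_mul_log_two_le (Int.natAbs_ne_zero.2 he0)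
    have h3 : Real.log (e.natAbs : ℝ) ≤
        |Real.log ((2 * m).factorial)| + 2 * m * |Real.log m| + 2 * m * Real.log H := by
      have hb := abs_resultant_le hd hm hH hc
      rw [← he] at hb
      have hpos : (0 : ℝ) < e.natAbs := Nat.cast_pos.2 (Int.natAbs_pos.2 he0)
      have hm0 : (m : ℝ) ≠ 0 := Nat.cast_ne_zero.2 (by omega)
      rw [Nat.cast_natAbs, Int.cast_abs] at hpos ⊢
      refine (Real.log_le_log hpos hb).trans ?_
      rw [Real.log_mul (Nat.cast_ne_zero.2 (Nat.factorial_ne_zero _))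
          (pow_ne_zero _ (mul_ne_zero hm0 (by linarith))),
        Real.log_pow, Real.log_mul hm0 (by linarith)]
      push_cast
      nlinarith [le_abs_self (Real.log ((2 * m).factorial : ℕ)), le_abs_self (Real.log (m : ℝ)),
        (Nat.cast_nonneg m : (0 : ℝ) ≤ m)]
    have h4 : (e.natAbs.primeFactors.card : ℝ) ≤ 2 * Real.log (e.natAbs : ℝ) := by
      nlinarith [Real.log_two_gt_d9, (Nat.cast_nonneg e.natAbs.primeFactors.card :
        (0 : ℝ) ≤ (e.natAbs.primeFactors.card : ℝ))]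
    rw [hK₁]
    nlinarith [abs_nonneg (Real.log ((2 * m).factorial : ℕ)),
      mul_nonneg (abs_nonneg (Real.log (m : ℝ))) (Nat.cast_nonneg (α := ℝ) m),
      (Nat.cast_nonneg ((4 * m + 3) ^ 2) : (0 : ℝ) ≤ _), (Nat.cast_nonneg m : (0 : ℝ) ≤ m),
      mul_nonneg hlH (Nat.cast_nonneg (α := ℝ) m)]
  obtain ⟨E, hE⟩ : ∃ E : ℝ, E = K₁ * (1 + Real.log H) := ⟨_, rfl⟩
  have hE0 : 0 ≤ E := hE ▸ mul_nonneg hK0 (by linarith)
  suffices h : (S.card : ℝ) ≤ Real.sqrt L * Real.log L * (300 + 16 * E) by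
    refine h.trans ?_
    rw [hE]
    nlinarith [mul_nonneg hsL.le (by linarith : (0 : ℝ) ≤ Real.log L)]
  have htriv : (S.card : ℝ) ≤ L := by
    have := Finset.card_le_card hS
    rw [Nat.card_Ioc, Nat.sub_zero] at this
    exact_mod_cast this
  obtain ⟨Q, hQ⟩ : ∃ Q, Q = Nat.sqrt L := ⟨_, rfl⟩
  have hsQ : Real.sqrt L < (Q : ℝ) + 1 := hQ ▸ Real.real_sqrt_lt_nat_sqrt_succ
  rcases lt_or_ge Q 6 with hQ6 | hQ6
  · have : (Q : ℝ) ≤ 5 := by exact_mod_cast (by omega : Q ≤ 5)
    nlinarith [mul_le_mul_of_nonneg_left hl2 hsL.le,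
      mul_nonneg (mul_nonneg hsL.le (by linarith : (0 : ℝ) ≤ Real.log L)) hE0]
  have hQ' : (6 : ℝ) ≤ Q := by exact_mod_cast hQ6
  rcases le_or_gt (Real.sqrt L / (16 * Real.log L)) E with hsmall | hbig
  · rw [div_le_iff₀ (by linarith)] at hsmall
    nlinarith [mul_le_mul_of_nonneg_left hsmall hsL.le,
      mul_le_mul_of_nonneg_left hl2 hsL.le]
  obtain ⟨P, hP⟩ : ∃ P, P = ((Finset.range (Q + 1)).filter Nat.Prime) \ X₀ := ⟨_, rfl⟩
  have hPcard : Real.sqrt L / (16 * Real.log L) ≤ P.card := by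
    have h1 := le_primeCount hQ6
    have h2 : (((Finset.range (Q + 1)).filter Nat.Prime).card : ℝ) ≤ P.card + X₀.card := by
      rw [hP]
      exact_mod_cast Finset.card_le_card_sdiff_add_card
    have hlog : Real.log Q ≤ Real.log L :=
      Real.log_le_log (by linarith) (by exact_mod_cast hQ ▸ Nat.sqrt_le_self L)
    have h3 : Real.sqrt L / (8 * Real.log L) ≤ (Q : ℝ) / (4 * Real.log Q) := by
      rw [div_le_div_iff₀ (by linarith) (mul_pos four_pos (Real.log_pos (by linarith)))]
      nlinarith [mul_le_mul_of_nonneg_left hlog (by linarith : (0 : ℝ) ≤ (Q : ℝ) + 1),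
        mul_le_mul_of_nonneg_right hsQ.le (Real.log_nonneg (by linarith : (1 : ℝ) ≤ Q))]
    have h4 : Real.sqrt L / (8 * Real.log L) = 2 * (Real.sqrt L / (16 * Real.log L)) := by ring
    linarith
  have hsign : ∀ (u : ℤˣ) (S' : Finset ℕ), S' ⊆ Finset.Ioc 0 L →
      (∀ t ∈ S', IsSquare ((u : ℤ) * f.eval (t : ℤ))) →
      (1 / 4 : ℝ) * P.card * S'.card ≤ 2 * L := by
    intro u S' hS' hsq
    obtain ⟨T, hT⟩ : ∃ T : Finset (Fin 1 → ℕ), T = S'.image fun t _ => t := ⟨_, rfl⟩
    have hTcard : T.card = S'.card := by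
      rw [hT, Finset.card_image_of_injective]
      exact fun a b h => congrFun h 0
    have h := ThinSets.card_mul_le_of_missing (n := 1) (L := L) (Q := Q) P
      (fun p hp => ?_) T ?_ (c := 1 / 4) (fun p hp => ?_)
    · rw [hTcard, Nat.sub_self, pow_zero, Nat.cast_one, one_mul, one_mul] at h
      refine h.trans ?_
      have : (Q : ℝ) * Q ≤ L := by exact_mod_cast hQ ▸ Nat.sqrt_le L
      linarith
    · rw [hP, Finset.mem_sdiff, Finset.mem_filter, Finset.mem_range] at hp
      exact ⟨hp.1.2, by omega⟩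
    · rw [hT]
      intro x hx
      obtain ⟨t, ht, rfl⟩ := Finset.mem_image.1 hx
      exact ThinSets.mem_natBox.2 fun _ => hS' ht
    · rw [hP, hX₀, Finset.mem_sdiff, Finset.mem_filter, Finset.mem_union, not_or,
        Finset.mem_range, Finset.mem_range, not_lt, Nat.mem_primeFactors] at hp
      obtain ⟨⟨-, hprime⟩, hp0, hpe⟩ := hp
      have := Fact.mk hprime
      have he' : (e : ZMod p) ≠ 0 := fun h0 => hpe ⟨hprime,
        Int.natCast_dvd.1 ((ZMod.intCast_zmod_eq_zero_iff_dvd e p).1 h0),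
        Int.natAbs_ne_zero.2 he0⟩
      obtain ⟨g, hg⟩ : ∃ g, g = C ((u : ℤ) : ZMod p) * f.map (Int.castRingHom (ZMod p)) := ⟨_, rfl⟩
      have hu : IsUnit (C ((u : ℤ) : ZMod p)) := (u.isUnit.map (Int.castRingHom (ZMod p))).map C
      have hgsq : Squarefree g := by
        rw [hg]
        exact Squarefree.squarefree_of_dvd ((associated_unit_mul_left _ _ hu).symm.dvd')
          (squarefree_mod hUV he')
      have hgd : g.natDegree = m := by
        rw [hg, natDegree_C_mul_of_mul_ne_zero, hf.natDegree_map, hd]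
        rw [(hf.map _).leadingCoeff, mul_one]
        exact (u.isUnit.map (Int.castRingHom (ZMod p))).ne_zero
      refine le_trans (Nat.cast_le.2 ?_) ((card_square_classes hp0 hgsq hgd hm).trans_eq
        (by ring))
      refine Finset.card_le_card_of_injOn (fun h => (h 0 : ZMod p)) (fun h hh => ?_)
        fun h hh h' hh' e' => funext fun i => ?_
      · rw [Finset.mem_coe, Finset.mem_image] at hh
        obtain ⟨x, hx, rfl⟩ := hh
        rw [hT, Finset.mem_image] at hx
        obtain ⟨t, ht, rfl⟩ := hx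
        rw [Finset.mem_coe, Finset.mem_filter]
        refine ⟨Finset.mem_univ _, ?_⟩
        have h1 := (hsq t ht).map (Int.castRingHom (ZMod p))
        rw [map_mul, ← eval₂_at_apply, ← eval_map, map_natCast] at h1
        rw [hg, eval_mul, eval_C]
        simpa using h1
      · rw [Finset.mem_coe, Finset.mem_image] at hh hh'
        obtain ⟨x, -, rfl⟩ := hh
        obtain ⟨x', -, rfl⟩ := hh'
        rw [Fin.fin_one_eq_zero i]
        have h1 := (ZMod.natCast_eq_natCast_iff' _ _ _).1 e'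
        simpa using h1
  obtain ⟨S₁, hS₁⟩ : ∃ S₁, S₁ = S.filter fun t : ℕ => IsSquare (f.eval (t : ℤ)) := ⟨_, rfl⟩
  have h1 := hsign 1 S₁ (hS₁ ▸ (Finset.filter_subset _ _).trans hS) fun t ht => by
    rw [hS₁, Finset.mem_filter] at ht
    simpa using ht.2
  have h2 := hsign (-1) (S \ S₁) (Finset.sdiff_subset.trans hS) fun t ht => by
    rw [Finset.mem_sdiff, hS₁, Finset.mem_filter, not_and] at ht
    obtain ⟨y, hy | hy⟩ := hval t ht.1
    · exact absurd (hy ▸ IsSquare.sq y) (ht.2 ht.1)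
    · rw [hy, Units.val_neg, Units.val_one, neg_one_mul, neg_neg]
      exact IsSquare.sq y
  have hsum : (S.card : ℝ) ≤ S₁.card + (S \ S₁).card := by
    exact_mod_cast (Finset.card_le_card_sdiff_add_card (s := S) (t := S₁)).trans_eq (add_comm _ _)
  have hP0 : 0 < Real.sqrt L / (16 * Real.log L) := div_pos hsL (by linarith)
  have h3 : Real.sqrt L / (16 * Real.log L) * S.card ≤ 16 * L := by
    nlinarith [mul_le_mul_of_nonneg_right hPcard (Nat.cast_nonneg (α := ℝ) S.card),
      mul_le_mul_of_nonneg_left hsum (Nat.cast_nonneg (α := ℝ) P.card)]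
  rw [div_mul_eq_mul_div, div_le_iff₀ (by linarith)] at h3
  nlinarith [mul_nonneg (mul_nonneg hsL.le (by linarith : (0 : ℝ) ≤ Real.log L)) hE0]

end FA.TwoTorsionBound

end
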