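import Fermat.Agent.TwoTorsionBound.Count
import Fermat.Agent.TwoTorsionBound.Sieve
import Mathlib.Topology.Algebra.Polynomial
import Mathlib.NumberTheory.NumberField.InfinitePlace.Embeddings
import Mathlib.RingTheory.Norm.Basic

/-!
# Generators with a norm that is a square up to sign

A box of radius `Y` meets `O (Y ^ (n - 1) / √|D|)` classes modulo `ℤ`, and each class holds
`O (√Y (1 + log Y) ^ 2)` generators whose norm is a square up to sign.
-/

set_option autoImplicit false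

noncomputable section

namespace FA.TwoTorsionBound

open NumberField Module Polynomial IntermediateField

variable {K : Type} [Field K] [NumberField K]

/-- The norm of `t - x` as a polynomial in `t`. -/
theorem exists_norm_poly {m : ℕ} (hn : finrank ℚ K = m) {x : 𝓞 K} (hx : ℚ⟮(x : K)⟯ = ⊤) {B : ℝ}
    (hB : 1 ≤ B) (hb : ∀ φ : K →+* ℂ, ‖φ (x : K)‖ ≤ B) :
    ∃ f : ℤ[X], f.Monic ∧ f.natDegree = m ∧ Irreducible (f.map (Int.castRingHom ℚ)) ∧
      (∀ i, |(f.coeff i : ℝ)| ≤ B ^ m * m.choose (m / 2)) ∧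
      ∀ t : ℤ, f.eval t = Algebra.norm ℤ ((t : 𝓞 K) - x) := by
  classical
  obtain ⟨b, hb'⟩ : ∃ b, b = RingOfIntegers.basis K := ⟨_, rfl⟩
  obtain ⟨f, hf⟩ : ∃ f, f = (Algebra.leftMulMatrix b x).charpoly := ⟨_, rfl⟩
  have hmonic : f.Monic := hf ▸ Matrix.charpoly_monic _
  have hdeg : f.natDegree = m := by
    rw [hf, Matrix.charpoly_natDegree_eq_dim, ← finrank_eq_card_chooseBasisIndex,
      RingOfIntegers.rank, hn]
  have hzero : aeval x f = 0 := by
    refine (injective_iff_map_eq_zero _).1 (Algebra.leftMulMatrix_injective b) _ ?_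
    rw [← Polynomial.aeval_algHom_apply, hf, Matrix.aeval_self_charpoly]
  have hint : IsIntegral ℚ (x : K) := Algebra.IsIntegral.isIntegral _
  have heq : minpoly ℚ (x : K) = f.map (Int.castRingHom ℚ) := by
    refine (eq_of_monic_of_dvd_of_natDegree_le (minpoly.monic hint) (hmonic.map _)
      (minpoly.dvd ℚ _ ?_) ?_).symm
    · rw [← algebraMap_int_eq, aeval_map_algebraMap, RingOfIntegers.coe_eq_algebraMap,
        aeval_algebraMap_apply, hzero, map_zero]
    · rw [hmonic.natDegree_map, hdeg, ← adjoin.finrank hint, hx, IntermediateField.finrank_top',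
        hn]
  refine ⟨f, hmonic, hdeg, heq ▸ minpoly.irreducible hint, fun i => ?_, fun t => ?_⟩
  · have h := Polynomial.coeff_bdd_of_roots_le (f := algebraMap ℚ ℂ) (p := f.map (Int.castRingHom ℚ))
      (d := m) (B := B) (hmonic.map _) (IsAlgClosed.splits _) (natDegree_map_le.trans hdeg.le)
      (fun z hz => ?_) i
    · rw [coeff_map, coeff_map, eq_intCast, map_intCast, Complex.norm_intCast] at h
      rwa [max_eq_left hB] at h
    · rw [← heq] at hz
      have hz' : z ∈ (minpoly ℚ (x : K)).rootSet ℂ := by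
        rw [rootSet, Finset.mem_coe, Multiset.mem_toFinset, aroots]
        exact hz
      rw [← NumberField.Embeddings.range_eval_eq_rootSet_minpoly K ℂ (x : K)] at hz'
      obtain ⟨φ, rfl⟩ := hz'
      exact hb φ
  · rw [hf, Matrix.eval_charpoly, Algebra.norm_eq_matrix_det b, map_sub, map_intCast,
      Matrix.scalar_apply, ← Matrix.diagonal_intCast]
    rfl

/-- **Square norms on a line.** -/
theorem exists_line_bound (m : ℕ) : ∃ C : ℝ, 0 ≤ C ∧ ∀ (K : Type) [Field K] [NumberField K],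
    finrank ℚ K = m → ∀ (β : 𝓞 K), ℚ⟮(β : K)⟯ = ⊤ → ∀ Y : ℝ, 1 ≤ Y →
      (∀ φ : K →+* ℂ, ‖φ (β : K)‖ ≤ Y) → ∀ T : Finset ℤ, (∀ t ∈ T, |(t : ℝ)| ≤ Y) →
        (∀ t ∈ T, ∃ y : ℤ, Algebra.norm ℤ (β + t) = y ^ 2 ∨ Algebra.norm ℤ (β + t) = -y ^ 2) →
        (T.card : ℝ) ≤ C * Real.sqrt Y * (1 + Real.log Y) ^ 2 := by
  obtain ⟨C, hC, hsieve⟩ := exists_square_values m
  obtain ⟨c₀, hc₀⟩ : ∃ c₀ : ℝ, c₀ = 1 + (m * Real.log 3 + Real.log (m.choose (m / 2))) + m :=
    ⟨_, rfl⟩
  have hchoose : (1 : ℝ) ≤ m.choose (m / 2) :=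
    Nat.one_le_cast.2 (Nat.choose_pos (Nat.div_le_self _ _))
  have hc0 : 0 ≤ c₀ := hc₀ ▸ add_nonneg (add_nonneg zero_le_one (add_nonneg
    (mul_nonneg (Nat.cast_nonneg _) (Real.log_nonneg (by norm_num))) (Real.log_nonneg hchoose)))
    (Nat.cast_nonneg _)
  refine ⟨C * (2 * (2 * c₀)), by positivity, fun K _ _ hn β hβ Y hY hb T hT hsq => ?_⟩
  classical
  obtain ⟨M, hM⟩ : ∃ M, M = ⌊Y⌋₊ + 1 := ⟨_, rfl⟩
  have hMY : Y < (M : ℝ) := by rw [hM]; push_cast; exact Nat.lt_floor_add_one Y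
  have hM2 : (M : ℝ) ≤ 2 * Y := by
    rw [hM]; push_cast; linarith [Nat.floor_le (zero_le_one.trans hY)]
  obtain ⟨x, hx⟩ : ∃ x : 𝓞 K, x = (M : 𝓞 K) - β := ⟨_, rfl⟩
  have hxK : (x : K) = (M : K) - β := by rw [hx]; rfl
  have hgen : ℚ⟮(x : K)⟯ = ⊤ := by
    rw [← hβ]
    refine le_antisymm (hβ ▸ le_top) ?_
    rw [adjoin_simple_le_iff, show (β : K) = (M : K) - x by rw [hxK]; ring]
    exact sub_mem (IntermediateField.natCast_mem _ M) (mem_adjoin_simple_self ℚ _)
  have hxb : ∀ φ : K →+* ℂ, ‖φ (x : K)‖ ≤ 3 * Y := fun φ => by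
    rw [hxK, map_sub, map_natCast]
    refine (norm_sub_le _ _).trans ?_
    rw [Complex.norm_natCast]
    linarith [hb φ]
  obtain ⟨f, hmonic, hdeg, hirr, hcoef, heval⟩ :=
    exists_norm_poly hn hgen (B := 3 * Y) (by linarith) hxb
  obtain ⟨H, hH⟩ : ∃ H, H = (3 * Y) ^ m * (m.choose (m / 2) : ℝ) := ⟨_, rfl⟩
  have hH1 : 1 ≤ H := hH ▸ one_le_mul_of_one_le_of_one_le (one_le_pow₀ (by linarith)) hchoose
  obtain ⟨S, hS⟩ : ∃ S, S = T.image fun t : ℤ => (t + M).toNat := ⟨_, rfl⟩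
  have hpos : ∀ t ∈ T, 0 < t + (M : ℤ) ∧ t + (M : ℤ) ≤ 2 * M := fun t ht => by
    have h := abs_le.1 (hT t ht)
    constructor
    · exact_mod_cast (by push_cast; linarith : (0 : ℝ) < ((t + M : ℤ) : ℝ))
    · exact_mod_cast (by push_cast; linarith : ((t + M : ℤ) : ℝ) ≤ ((2 * M : ℤ) : ℝ))
  have hcard : S.card = T.card := by
    rw [hS]
    refine Finset.card_image_of_injOn fun a ha b hb e => ?_
    have h1 := hpos a ha
    have h2 := hpos b hb
    have : (a + M).toNat = (b + M).toNat := e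
    omega
  have h := hsieve f hmonic hdeg hirr H hH1 (fun i => hH ▸ hcoef i) (2 * M) (by omega) S
    (fun s hs => ?_) fun s hs => ?_
  · rw [hcard] at h
    refine h.trans ?_
    have hlY : 0 ≤ Real.log Y := Real.log_nonneg hY
    have h4 : ((2 * M : ℕ) : ℝ) ≤ 4 * Y := by push_cast; linarith
    have hs4 : Real.sqrt ((2 * M : ℕ) : ℝ) ≤ 2 * Real.sqrt Y := by
      refine (Real.sqrt_le_sqrt h4).trans_eq ?_
      rw [Real.sqrt_mul (by norm_num), show (4 : ℝ) = 2 ^ 2 by norm_num,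
        Real.sqrt_sq two_pos.le]
    have hl4 : Real.log ((2 * M : ℕ) : ℝ) ≤ 2 * (1 + Real.log Y) := by
      refine (Real.log_le_log (Nat.cast_pos.2 (by omega)) h4).trans ?_
      rw [Real.log_mul (by norm_num) (by linarith), show (4 : ℝ) = 2 ^ 2 by norm_num, Real.log_pow]
      push_cast
      linarith [Real.log_two_lt_d9]
    have hlH : 1 + Real.log H ≤ c₀ * (1 + Real.log Y) := by
      rw [hH, Real.log_mul (pow_ne_zero _ (by linarith)) (by linarith), Real.log_pow,
        Real.log_mul (by norm_num) (by linarith), hc₀]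
      nlinarith [mul_nonneg (add_nonneg zero_le_one (add_nonneg (mul_nonneg (Nat.cast_nonneg m)
        (Real.log_nonneg (by norm_num : (1 : ℝ) ≤ 3))) (Real.log_nonneg hchoose))) hlY]
    calc C * (Real.sqrt ((2 * M : ℕ) : ℝ) * Real.log ((2 * M : ℕ) : ℝ)) * (1 + Real.log H)
        ≤ C * ((2 * Real.sqrt Y) * (2 * (1 + Real.log Y))) * (c₀ * (1 + Real.log Y)) := by
          refine mul_le_mul (mul_le_mul_of_nonneg_left (mul_le_mul hs4 hl4
            (Real.log_natCast_nonneg _) (by positivity)) hC) hlH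
            (by linarith [Real.log_nonneg hH1]) (by positivity)
      _ = _ := by ring
  · rw [hS, Finset.mem_image] at hs
    obtain ⟨t, ht, rfl⟩ := hs
    have := hpos t ht
    rw [Finset.mem_Ioc]
    omega
  · rw [hS, Finset.mem_image] at hs
    obtain ⟨t, ht, rfl⟩ := hs
    rw [Int.toNat_of_nonneg (hpos t ht).1.le, heval,
      show ((t + M : ℤ) : 𝓞 K) - x = β + t by rw [hx]; push_cast; ring]
    exact hsq t ht

/-- **Few generators with square norm.** -/
theorem exists_generator_count (m : ℕ) : ∃ C : ℝ, 0 ≤ C ∧ ∀ (K : Type) [Field K] [NumberField K],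
    finrank ℚ K = m + 1 → ∀ Y : ℝ, |(discr K : ℝ)| ^ ((1 : ℝ) / (m + 1 : ℕ)) ≤ Y →
      ∀ G : Finset (𝓞 K), (∀ β ∈ G, ℚ⟮(β : K)⟯ = ⊤ ∧ (∀ φ : K →+* ℂ, ‖φ (β : K)‖ ≤ Y) ∧
        ∃ y : ℤ, Algebra.norm ℤ β = y ^ 2 ∨ Algebra.norm ℤ β = -y ^ 2) →
        (G.card : ℝ) * Real.sqrt |(discr K : ℝ)| ≤
          C * Y ^ m * (Real.sqrt Y * (1 + Real.log Y) ^ 2) := by
  obtain ⟨C₁, hC₁, hline⟩ := exists_line_bound (m + 1)
  obtain ⟨C₂, hC₂, hbox⟩ := exists_box_count m
  refine ⟨C₂ * 2 ^ (m + 1) * (C₁ * 8), by positivity, fun K _ _ hn Y hY G hG => ?_⟩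
  classical
  have hD : 1 ≤ |(discr K : ℝ)| := by
    rw [← Int.cast_abs]
    exact_mod_cast Int.one_le_abs (discr_ne_zero K)
  have hY1 : 1 ≤ Y := le_trans (Real.one_le_rpow hD (by positivity)) hY
  obtain ⟨q, hq⟩ : ∃ q : 𝓞 K → 𝓞 K ⧸ AddSubgroup.zmultiples (1 : 𝓞 K),
      q = QuotientAddGroup.mk := ⟨_, rfl⟩
  have hqiff : ∀ a b, q a = q b ↔ ∃ k : ℤ, b = a + k := fun a b => by
    rw [hq, QuotientAddGroup.eq, AddSubgroup.mem_zmultiples_iff]
    refine exists_congr fun k => ?_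
    rw [zsmul_one, eq_neg_add_iff_add_eq, eq_comm]
  obtain ⟨W, hW⟩ : ∃ W, W = G.image q := ⟨_, rfl⟩
  have hrep : ∀ w ∈ W, ∃ r ∈ G, q r = w := fun w hw => by
    rw [hW] at hw
    exact Finset.mem_image.1 hw
  choose! r hrG hrq using hrep
  -- the classes
  have hclasses : (W.card : ℝ) * Y * Real.sqrt |(discr K : ℝ)| ≤ C₂ * (2 * Y) ^ (m + 1) := by
    have h := hbox K hn (2 * Y) (hY.trans (by linarith))
      ((W ×ˢ Finset.range (⌊Y⌋₊ + 1)).image fun p => r p.1 + (p.2 : 𝓞 K)) (fun a ha φ => ?_)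
    · rw [Finset.card_image_of_injOn, Finset.card_product, Finset.card_range, Nat.cast_mul] at h
      · refine le_trans (mul_le_mul_of_nonneg_right (mul_le_mul_of_nonneg_left ?_
          (Nat.cast_nonneg _)) (Real.sqrt_nonneg _)) h
        push_cast
        exact (Nat.lt_floor_add_one Y).le
      · intro p hp p' hp' e
        rw [Finset.mem_coe, Finset.mem_product] at hp hp'
        have h1 : p.1 = p'.1 := by
          rw [← hrq _ hp.1, ← hrq _ hp'.1, hqiff]
          refine ⟨(p.2 : ℤ) - p'.2, ?_⟩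
          push_cast
          linear_combination -e
        have h2 : (p.2 : 𝓞 K) = p'.2 := by
          have e' : r p.1 + (p.2 : 𝓞 K) = r p'.1 + p'.2 := e
          rw [h1] at e'
          exact add_left_cancel e'
        exact Prod.ext h1 (by exact_mod_cast h2)
    · obtain ⟨p, hp, rfl⟩ := Finset.mem_image.1 ha
      rw [Finset.mem_product, Finset.mem_range, Nat.lt_succ_iff] at hp
      rw [RingOfIntegers.coe_eq_algebraMap, map_add, map_natCast, map_add, map_natCast]
      refine (norm_add_le _ _).trans ?_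
      rw [Complex.norm_natCast]
      have h3 : (p.2 : ℝ) ≤ Y := (Nat.cast_le.2 hp.2).trans (Nat.floor_le (by linarith))
      linarith [(hG _ (hrG _ hp.1)).2.1 φ]
  -- each class
  have hfib : ∀ w ∈ W, ((G.filter fun b => q b = w).card : ℝ) ≤
      C₁ * 8 * (Real.sqrt Y * (1 + Real.log Y) ^ 2) := by
    intro w hw
    obtain ⟨hgen, hsize, -⟩ := hG _ (hrG w hw)
    have hk : ∀ b ∈ G.filter (fun b => q b = w), ∃ k : ℤ, b = r w + k := fun b hb => by
      rw [← hqiff, hrq w hw]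
      exact (Finset.mem_filter.1 hb).2.symm
    choose! k hk using hk
    have hcard : ((G.filter fun b => q b = w).image k).card = (G.filter fun b => q b = w).card :=
      Finset.card_image_of_injOn fun a ha b hb e => by rw [hk a ha, hk b hb, e]
    have h := hline K hn (r w) hgen (2 * Y) (by linarith) (fun φ => (hsize φ).trans (by linarith))
      ((G.filter fun b => q b = w).image k) (fun t ht => ?_) fun t ht => ?_
    · rw [hcard] at h
      refine h.trans ?_
      have hlY : 0 ≤ Real.log Y := Real.log_nonneg hY1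
      have h1 : Real.sqrt (2 * Y) ≤ 2 * Real.sqrt Y := by
        rw [show (2 : ℝ) * Real.sqrt Y = Real.sqrt (2 ^ 2 * Y) by
          rw [Real.sqrt_mul (by norm_num), Real.sqrt_sq two_pos.le]]
        exact Real.sqrt_le_sqrt (by linarith)
      have h2 : (1 + Real.log (2 * Y)) ^ 2 ≤ 4 * (1 + Real.log Y) ^ 2 := by
        rw [show (4 : ℝ) * (1 + Real.log Y) ^ 2 = (2 * (1 + Real.log Y)) ^ 2 by ring]
        refine pow_le_pow_left₀ (by linarith [Real.log_nonneg (by linarith : 1 ≤ 2 * Y)]) ?_ 2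
        rw [Real.log_mul (by norm_num) (by linarith)]
        linarith [Real.log_two_lt_d9]
      calc C₁ * Real.sqrt (2 * Y) * (1 + Real.log (2 * Y)) ^ 2
          ≤ C₁ * (2 * Real.sqrt Y) * (4 * (1 + Real.log Y) ^ 2) :=
            mul_le_mul (mul_le_mul_of_nonneg_left h1 hC₁) h2 (sq_nonneg _) (by positivity)
        _ = _ := by ring
    · obtain ⟨b, hb, rfl⟩ := Finset.mem_image.1 ht
      obtain ⟨φ⟩ : Nonempty (K →+* ℂ) := inferInstance
      have h1 := (hG b (Finset.mem_filter.1 hb).1).2.1 φ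
      have h2 : ((k b : ℤ) : ℂ) = φ (b : K) - φ (r w : K) := by
        rw [← map_sub, RingOfIntegers.coe_eq_algebraMap, RingOfIntegers.coe_eq_algebraMap,
          ← map_sub (algebraMap (𝓞 K) K), show b - r w = (k b : 𝓞 K) from
            sub_eq_iff_eq_add'.2 (hk b hb), map_intCast, map_intCast]
      rw [← Complex.norm_intCast, h2]
      linarith [norm_sub_le (φ (b : K)) (φ (r w : K)), hsize φ]
    · obtain ⟨b, hb, rfl⟩ := Finset.mem_image.1 ht
      rw [← hk b hb]
      exact (hG b (Finset.mem_filter.1 hb).1).2.2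
  have hsum : (G.card : ℝ) ≤ W.card * (C₁ * 8 * (Real.sqrt Y * (1 + Real.log Y) ^ 2)) := by
    rw [Finset.card_eq_sum_card_fiberwise (f := q) (t := W)
      (fun b hb => hW ▸ Finset.mem_image_of_mem q hb), Nat.cast_sum]
    refine (Finset.sum_le_sum hfib).trans_eq ?_
    rw [Finset.sum_const, nsmul_eq_mul]
  refine le_of_mul_le_mul_right ?_ (lt_of_lt_of_le zero_lt_one hY1)
  calc (G.card : ℝ) * Real.sqrt |(discr K : ℝ)| * Y
      ≤ W.card * (C₁ * 8 * (Real.sqrt Y * (1 + Real.log Y) ^ 2)) *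
          Real.sqrt |(discr K : ℝ)| * Y := by gcongr
    _ = C₁ * 8 * (Real.sqrt Y * (1 + Real.log Y) ^ 2) *
          (W.card * Y * Real.sqrt |(discr K : ℝ)|) := by ring
    _ ≤ C₁ * 8 * (Real.sqrt Y * (1 + Real.log Y) ^ 2) * (C₂ * (2 * Y) ^ (m + 1)) :=
        mul_le_mul_of_nonneg_left hclasses (by positivity)
    _ = _ := by rw [mul_pow, pow_succ Y]; ring

end FA.TwoTorsionBound

end
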