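import Fermat.Agent.TwoTorsionBound.Representative
import Fermat.Agent.TwoTorsionBound.Classes
import Fermat.Agent.TwoTorsionBound.Lines

/-!
# The bound for the `2`-torsion of the class group

A class killed by `2` is fixed by an integer `β` of conjugates `O (|d| ^ (1 / n))` whose norm is a
square up to sign, unless `β` lies in a proper subfield; those are `O (|d| ^ (1/4 + ε))`.
-/

set_option autoImplicit false

noncomputable section

namespace FA.TwoTorsionBound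

open NumberField Module IntermediateField UniqueFactorizationMonoid
open scoped nonZeroDivisors

theorem one_le_abs_discr (K : Type) [Field K] [NumberField K] : (1 : ℝ) ≤ |(discr K : ℝ)| := by
  rw [← Int.cast_abs]
  exact_mod_cast Int.one_le_abs (discr_ne_zero K)

/-- **The classes coming from proper subfields.** -/
theorem exists_subfield_count (n : ℕ) {ε : ℝ} (hε : 0 < ε) : ∃ C : ℝ, 0 ≤ C ∧
    ∀ (K : Type) [Field K] [NumberField K], finrank ℚ K = n →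
      ∀ G : Finset (ClassGroup (𝓞 K)), (∀ c ∈ G, ∃ (J : (Ideal (𝓞 K))⁰) (β : 𝓞 K),
        ClassGroup.mk0 J = c ∧ (J : Ideal (𝓞 K)) ^ 2 = Ideal.span {β} ∧ ℚ⟮(β : K)⟯ ≠ ⊤) →
        (G.card : ℝ) ≤ C * |(discr K : ℝ)| ^ ((1 : ℝ) / 4 + ε) := by
  have hh := fun d : ℕ => exists_classNumber_le d hε
  choose c hc hh using hh
  obtain ⟨τ, hτ, hdiv⟩ :=
    FA.RepresentationBound.card_divisors_isBigO (ε / (2 * (n + 1))) (by positivity)
  obtain ⟨c', hc'⟩ : ∃ c', c' = ∑ d ∈ Finset.range (n + 1), c d := ⟨_, rfl⟩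
  have hc'0 : 0 ≤ c' := hc' ▸ Finset.sum_nonneg fun d _ => hc d
  refine ⟨2 ^ n * (c' * τ ^ n), by positivity, fun K _ _ hn G hG => ?_⟩
  classical
  obtain ⟨D, hD⟩ : ∃ D, D = (discr K).natAbs := ⟨_, rfl⟩
  have hD0 : D ≠ 0 := hD ▸ Int.natAbs_ne_zero.2 (discr_ne_zero K)
  have hDR : (D : ℝ) = |(discr K : ℝ)| := by rw [hD, Nat.cast_natAbs, Int.cast_abs]
  have hD1 := one_le_abs_discr K
  obtain ⟨_, hfields⟩ := exists_card_intermediateField_le (K := K)
  choose! J β hJ hJβ hgen using hG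
  obtain ⟨g, hg⟩ : ∃ g : ClassGroup (𝓞 K) → IntermediateField ℚ K,
      ∀ x, g x = ℚ⟮(β x : K)⟯ := ⟨_, fun _ => rfl⟩
  have hfib : ∀ F, ((G.filter fun x => g x = F).card : ℝ) ≤
      c' * τ ^ n * |(discr K : ℝ)| ^ ((1 : ℝ) / 4 + ε) := by
    intro F
    rcases (G.filter fun x => g x = F).eq_empty_or_nonempty with he | ⟨x₀, hx₀⟩
    · rw [he, Finset.card_empty, Nat.cast_zero]
      have := (zero_le_one.trans hτ : (0 : ℝ) ≤ τ)
      positivity
    rw [Finset.mem_filter, hg] at hx₀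
    have hF : F ≠ ⊤ := hx₀.2 ▸ hgen x₀ hx₀.1
    have hdec : ∀ x ∈ G.filter (fun x => g x = F), ∃ (A : (Ideal (𝓞 F))⁰) (B : Ideal (𝓞 F))
        (E : Ideal (𝓞 K)), B ∣ Ideal.span {(D : 𝓞 F)} ∧
          B.map (algebraMap (𝓞 F) (𝓞 K)) = E ^ 2 ∧
          (J x : Ideal (𝓞 K)) = (A : Ideal (𝓞 F)).map (algebraMap (𝓞 F) (𝓞 K)) * E := by
      intro x hx
      rw [Finset.mem_filter, hg] at hx
      obtain ⟨b, hb⟩ : ∃ b : 𝓞 F, algebraMap (𝓞 F) (𝓞 K) b = β x := by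
        obtain ⟨b, hb⟩ : ∃ b : F, (b : K) = (β x : K) :=
          ⟨⟨_, hx.2 ▸ mem_adjoin_simple_self ℚ _⟩, rfl⟩
        have hint : IsIntegral ℤ b := by
          refine (isIntegral_algebraMap_iff (B := K) (algebraMap F K).injective).1 ?_
          rw [show algebraMap F K b = (β x : K) from hb]
          exact RingOfIntegers.isIntegral_coe _
        exact ⟨⟨b, hint⟩, RingOfIntegers.ext hb⟩
      have hJ0 : (J x : Ideal (𝓞 K)) ≠ 0 := nonZeroDivisors.coe_ne_zero _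
      obtain ⟨A, B, E, h1, h2, h3⟩ := exists_decomposition F (J x : Ideal (𝓞 K)) hJ0
        (Ideal.span {b}) (by rw [Ideal.map_span, Set.image_singleton, hb, hJβ x hx.1])
      refine ⟨⟨A, mem_nonZeroDivisors_of_ne_zero fun e => hJ0 ?_⟩, B, E, hD ▸ h1, h2, h3⟩
      rw [h3, e, Ideal.zero_eq_bot, Ideal.map_bot]
      exact Ideal.bot_mul E
    choose! A B E hB hBE hAE using hdec
    obtain ⟨t, ht, ht'⟩ := fewDivisors_natCast F hD0
    have hcard : (G.filter fun x => g x = F).card ≤ classNumber F * t.card := by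
      rw [classNumber, ← Finset.card_univ, ← Finset.card_product]
      refine Finset.card_le_card_of_injOn (fun x => (ClassGroup.mk0 (A x), B x))
        (fun x hx => Finset.mem_product.2 ⟨Finset.mem_univ _, ht' _ (hB x hx)⟩)
        fun x hx y hy e => ?_
      simp only [Prod.mk.injEq] at e
      rw [← hJ x (Finset.mem_filter.1 hx).1, ← hJ y (Finset.mem_filter.1 hy).1]
      exact mk0_eq_of_decomposition F (hAE x hx) (hAE y hy) (hBE x hx) (e.2 ▸ hBE y hy) e.1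
    have hdeg : finrank ℚ F ≤ n := hn ▸ Submodule.finrank_le F.toSubalgebra.toSubmodule
    have hdF : |(discr F : ℝ)| ≤ |(discr K : ℝ)| ^ ((1 : ℝ) / 2) := by
      rw [← Real.sqrt_eq_rpow]
      refine Real.le_sqrt_of_sq_le ?_
      have h := sq_natAbs_discr_le F hF
      rw [← hDR, hD, ← Int.cast_abs, ← Nat.cast_natAbs]
      exact_mod_cast h
    have hclass : (classNumber F : ℝ) ≤ c' * |(discr K : ℝ)| ^ ((1 : ℝ) / 4 + ε / 2) := by
      refine (hh _ F rfl).trans (mul_le_mul (hc' ▸ Finset.single_le_sum (fun d _ => hc d)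
        (Finset.mem_range.2 (Nat.lt_succ_of_le hdeg))) ?_ (by positivity) hc'0)
      refine (Real.rpow_le_rpow (abs_nonneg _) hdF (by positivity)).trans_eq ?_
      rw [← Real.rpow_mul (abs_nonneg _)]
      congr 1
      ring
    have hdivs : (t.card : ℝ) ≤ τ ^ n * |(discr K : ℝ)| ^ (ε / 2) := by
      refine (Nat.cast_le.2 ht).trans ?_
      rw [Nat.cast_pow]
      have h1 : (1 : ℝ) ≤ (D.divisors.card : ℕ) :=
        Nat.one_le_cast.2 (Finset.card_pos.2 ⟨1, Nat.one_mem_divisors.2 hD0⟩)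
      refine (pow_le_pow_right₀ h1 hdeg).trans ?_
      refine (pow_le_pow_left₀ (by linarith) (hdiv D hD0) n).trans ?_
      rw [mul_pow, hDR, ← Real.rpow_natCast (_ ^ _), ← Real.rpow_mul (abs_nonneg _)]
      refine mul_le_mul_of_nonneg_left (Real.rpow_le_rpow_of_exponent_le hD1 ?_) (by positivity)
      rw [div_mul_eq_mul_div, div_le_div_iff₀ (by positivity) two_pos]
      nlinarith
    refine (Nat.cast_le.2 hcard).trans ?_
    rw [Nat.cast_mul]
    refine (mul_le_mul hclass hdivs (Nat.cast_nonneg _) (by positivity)).trans_eq ?_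
    rw [show (1 : ℝ) / 4 + ε = (1 / 4 + ε / 2) + ε / 2 by ring,
      Real.rpow_add (by linarith : (0 : ℝ) < |(discr K : ℝ)|) (1 / 4 + ε / 2) (ε / 2)]
    ring
  calc (G.card : ℝ) = ∑ F : IntermediateField ℚ K, ((G.filter fun x => g x = F).card : ℝ) := by
        rw [← Nat.cast_sum]
        exact congrArg Nat.cast
          (Finset.card_eq_sum_card_fiberwise (f := g) fun x _ => Finset.mem_univ _)
    _ ≤ ∑ _F : IntermediateField ℚ K, c' * τ ^ n * |(discr K : ℝ)| ^ ((1 : ℝ) / 4 + ε) :=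
        Finset.sum_le_sum fun F _ => hfib F
    _ ≤ (2 : ℝ) ^ n * (c' * τ ^ n * |(discr K : ℝ)| ^ ((1 : ℝ) / 4 + ε)) := by
        rw [Finset.sum_const, Finset.card_univ, nsmul_eq_mul]
        refine mul_le_mul_of_nonneg_right ?_ (by positivity)
        exact_mod_cast hn ▸ hfields
    _ = _ := by ring

/-- **The `2`-torsion bound.** -/
theorem exists_two_torsion_bound (n : ℕ) (hn2 : 2 ≤ n) {ε : ℝ} (hε : 0 < ε) :
    ∃ C : ℝ, ∀ (K : Type) [Field K] [NumberField K], finrank ℚ K = n →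
      (Nat.card {c : ClassGroup (𝓞 K) // c ^ 2 = 1} : ℝ) ≤
        C * |(discr K : ℝ)| ^ ((1 : ℝ) / 2 - 1 / (2 * n) + ε) := by
  obtain ⟨m, rfl⟩ : ∃ m, n = m + 1 := ⟨n - 1, by omega⟩
  obtain ⟨C₁, hC₁, hgenc⟩ := exists_generator_count m
  obtain ⟨C₂, hC₂, hsub⟩ := exists_subfield_count (m + 1) hε
  obtain ⟨k, hk⟩ : ∃ k : ℝ, k = (1 + 1 / (ε / 2)) ^ 2 := ⟨_, rfl⟩
  have hk0 : 0 ≤ k := hk ▸ sq_nonneg _
  refine ⟨C₁ * k * (9 : ℝ) ^ ((m : ℝ) + 1 / 2 + ε) + C₂, fun K _ _ hn => ?_⟩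
  classical
  obtain ⟨Δ, hΔ⟩ : ∃ Δ : ℝ, Δ = |(discr K : ℝ)| := ⟨_, rfl⟩
  have hΔ1 : 1 ≤ Δ := hΔ ▸ one_le_abs_discr K
  obtain ⟨Y, hY⟩ : ∃ Y, Y = 9 * Δ ^ ((1 : ℝ) / (m + 1 : ℕ)) := ⟨_, rfl⟩
  have hY1 : 1 ≤ Y := by
    rw [hY]
    linarith [Real.one_le_rpow hΔ1 (by positivity : (0 : ℝ) ≤ (1 : ℝ) / (m + 1 : ℕ))]
  obtain ⟨S, hS⟩ : ∃ S : Finset (ClassGroup (𝓞 K)), S = Finset.univ.filter fun c => c ^ 2 = 1 :=
    ⟨_, rfl⟩
  have hrep : ∀ c ∈ S, ∃ (J : (Ideal (𝓞 K))⁰) (β : 𝓞 K), ClassGroup.mk0 J = c ∧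
      (J : Ideal (𝓞 K)) ^ 2 = Ideal.span {β} ∧ ∀ φ : K →+* ℂ, ‖φ (β : K)‖ ≤ Y := by
    intro c hc
    rw [hS, Finset.mem_filter] at hc
    obtain ⟨J, β, h1, h2, h3⟩ := exists_representative K hc.2
    exact ⟨J, β, h1, h2, fun φ => (h3 φ).trans_eq (by rw [hY, hΔ, hn])⟩
  choose! J β hJ hJβ hsize using hrep
  have hgen : ((S.filter fun c => ℚ⟮(β c : K)⟯ = ⊤).card : ℝ) ≤
      C₁ * k * (9 : ℝ) ^ ((m : ℝ) + 1 / 2 + ε) * Δ ^ ((1 : ℝ) / 2 - 1 / (2 * (m + 1 : ℕ)) + ε) := by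
    have hinj : Set.InjOn β (S.filter fun c => ℚ⟮(β c : K)⟯ = ⊤) := by
      intro a ha b hb e
      have ha' := (Finset.mem_filter.1 ha).1
      have hb' := (Finset.mem_filter.1 hb).1
      have h : (J a : Ideal (𝓞 K)) ^ 2 = (J b : Ideal (𝓞 K)) ^ 2 := by
        rw [hJβ a ha', hJβ b hb', e]
      rw [← hJ a ha', ← hJ b hb']
      exact congrArg ClassGroup.mk0 (Subtype.ext (dvd_antisymm
        ((pow_dvd_pow_iff_dvd two_ne_zero).1 h.dvd) ((pow_dvd_pow_iff_dvd two_ne_zero).1 h.symm.dvd)))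
    have h := hgenc K hn Y (hΔ ▸ hY ▸ (le_mul_of_one_le_left (by positivity) (by norm_num)))
      ((S.filter fun c => ℚ⟮(β c : K)⟯ = ⊤).image β) fun b hb => ?_
    · rw [Finset.card_image_of_injOn hinj, ← hΔ] at h
      have hlog : (1 + Real.log Y) ^ 2 ≤ k * Y ^ ε := by
        have h1 : 1 + Real.log Y ≤ (1 + 1 / (ε / 2)) * Y ^ (ε / 2) := by
          have h2 := Real.log_le_rpow_div (x := Y) (by linarith) (by positivity : 0 < ε / 2)
          have h3 := Real.one_le_rpow hY1 (by positivity : 0 ≤ ε / 2)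
          rw [add_mul, one_mul, one_div_mul_eq_div]
          linarith
        refine (pow_le_pow_left₀ (by linarith [Real.log_nonneg hY1]) h1 2).trans_eq ?_
        rw [mul_pow, hk, ← Real.rpow_natCast (Y ^ _), ← Real.rpow_mul (by linarith)]
        congr 1
        norm_num
      have h4 : ((S.filter fun c => ℚ⟮(β c : K)⟯ = ⊤).card : ℝ) * Real.sqrt Δ ≤
          C₁ * k * Y ^ ((m : ℝ) + 1 / 2 + ε) := by
        refine h.trans ?_
        rw [Real.rpow_add (by linarith), Real.rpow_add (by linarith), Real.rpow_natCast,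
          ← Real.sqrt_eq_rpow]
        calc C₁ * Y ^ m * (Real.sqrt Y * (1 + Real.log Y) ^ 2)
            ≤ C₁ * Y ^ m * (Real.sqrt Y * (k * Y ^ ε)) := by gcongr
          _ = _ := by ring
      refine le_of_mul_le_mul_right (h4.trans ?_) (Real.sqrt_pos.2 (by linarith) : 0 < Real.sqrt Δ)
      rw [hY, Real.mul_rpow (by norm_num) (by positivity), ← Real.rpow_mul (by linarith),
        mul_assoc _ (Δ ^ _) (Real.sqrt Δ), Real.sqrt_eq_rpow, ← Real.rpow_add (by linarith),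
        ← mul_assoc]
      refine mul_le_mul_of_nonneg_left (Real.rpow_le_rpow_of_exponent_le hΔ1 ?_) (by positivity)
      push_cast
      have hm : (0 : ℝ) < (m : ℝ) + 1 := by positivity
      rw [div_mul_eq_mul_div, one_mul, div_le_iff₀ hm]
      have h5 : (1 : ℝ) / (2 * ((m : ℝ) + 1)) * ((m : ℝ) + 1) = 1 / 2 := by field_simp
      nlinarith [mul_nonneg hε.le (Nat.cast_nonneg (α := ℝ) m)]
    · obtain ⟨c, hc, rfl⟩ := Finset.mem_image.1 hb
      rw [Finset.mem_filter] at hc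
      refine ⟨hc.2, hsize c hc.1, ((J c : Ideal (𝓞 K)).absNorm : ℤ), ?_⟩
      have h1 := congrArg Ideal.absNorm (hJβ c hc.1)
      rw [map_pow, Ideal.absNorm_span_singleton] at h1
      rw [← Nat.cast_pow, h1]
      exact Int.natAbs_eq _
  have hsub' : ((S.filter fun c => ¬ℚ⟮(β c : K)⟯ = ⊤).card : ℝ) ≤
      C₂ * Δ ^ ((1 : ℝ) / 2 - 1 / (2 * (m + 1 : ℕ)) + ε) := by
    refine (hsub K hn _ fun c hc => ?_).trans (hΔ ▸ mul_le_mul_of_nonneg_left
      (Real.rpow_le_rpow_of_exponent_le (hΔ ▸ hΔ1) ?_) hC₂)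
    · rw [Finset.mem_filter] at hc
      exact ⟨J c, β c, hJ c hc.1, hJβ c hc.1, hc.2⟩
    · have h : (1 : ℝ) / (2 * (m + 1 : ℕ)) ≤ 1 / 4 := by
        gcongr
        have : (2 : ℝ) ≤ (m + 1 : ℕ) := by exact_mod_cast hn2
        linarith
      linarith
  rw [← hΔ, add_mul, Nat.card_eq_fintype_card, Fintype.card_subtype, ← hS,
    ← Finset.card_filter_add_card_filter_not (s := S) fun c => ℚ⟮(β c : K)⟯ = ⊤, Nat.cast_add]
  exact add_le_add hgen hsub'

end FA.TwoTorsionBound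

end
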