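import Fermat.Agent.TwoTorsionBound.Shape
import Mathlib.MeasureTheory.Integral.Lebesgue.Add

/-!
# Integers in a box of radius at least `|D| ^ (1 / n)`

Every point of the mixed space is within `O (|D| ^ (1 / n))` of an integer, so at most
`C Y ^ n / √|D|` integers lie in such a box.
-/

set_option autoImplicit false

noncomputable section

namespace FA.TwoTorsionBound

open NumberField NumberField.InfinitePlace NumberField.mixedEmbedding MeasureTheory Module
open scoped Pointwise ENNReal NNReal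

/-- A set whose translates cover every point `N` times has measure at least `N` covolumes. -/
theorem mul_measure_le_of_cover {E L : Type*} [MeasurableSpace E] {μ : Measure E}
    [AddGroup L] [Countable L] [AddAction L E] [MeasurableSpace L] [MeasurableVAdd L E]
    [VAddInvariantMeasure L E μ] {F s : Set E} (fund : IsAddFundamentalDomain L F μ)
    (hs : NullMeasurableSet s μ) (N : ℕ)
    (h : ∀ x : E, ∃ t : Finset L, N ≤ t.card ∧ ∀ g ∈ t, x ∈ g +ᵥ s) :
    (N : ℝ≥0∞) * μ F ≤ μ s := by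
  classical
  have hm : ∀ g : L, NullMeasurableSet (g +ᵥ s) (μ.restrict F) := fun g =>
    (hs.vadd g).mono_ac Measure.restrict_le_self.absolutelyContinuous
  rw [fund.measure_eq_tsum s]
  calc (N : ℝ≥0∞) * μ F = ∫⁻ _ in F, (N : ℝ≥0∞) ∂μ := (setLIntegral_const _ _).symm
    _ ≤ ∫⁻ x in F, ∑' g : L, (g +ᵥ s).indicator 1 x ∂μ := lintegral_mono fun x => by
        obtain ⟨t, ht, htx⟩ := h x
        refine le_trans ?_ (ENNReal.sum_le_tsum t)
        rw [Finset.sum_congr rfl fun g hg => Set.indicator_of_mem (htx g hg) 1]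
        simpa using (Nat.cast_le (α := ℝ≥0∞)).2 ht
    _ = ∑' g : L, ∫⁻ x in F, (g +ᵥ s).indicator 1 x ∂μ :=
        lintegral_tsum fun g => aemeasurable_const.indicator₀ (hm g)
    _ = ∑' g : L, μ ((g +ᵥ s) ∩ F) := tsum_congr fun g => by
        rw [lintegral_indicator_one₀ (hm g), Measure.restrict_apply₀ (hm g)]

/-- **The count in a box.** -/
theorem exists_box_count (m : ℕ) : ∃ C : ℝ, 1 ≤ C ∧ ∀ (K : Type) [Field K] [NumberField K],
    finrank ℚ K = m + 1 → ∀ Y : ℝ, |(discr K : ℝ)| ^ ((1 : ℝ) / (m + 1 : ℕ)) ≤ Y →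
      ∀ s : Finset (𝓞 K), (∀ a ∈ s, ∀ φ : K →+* ℂ, ‖φ (a : K)‖ ≤ Y) →
        (s.card : ℝ) * Real.sqrt |(discr K : ℝ)| ≤ C * Y ^ (m + 1) := by
  obtain ⟨C₀, hC₀, hshape⟩ := exists_shape m
  obtain ⟨A, hA⟩ : ∃ A : ℝ, A = (m + 1 : ℕ) * C₀ + 2 := ⟨_, rfl⟩
  have hA1 : 1 ≤ A := by
    rw [hA]
    linarith [mul_nonneg (Nat.cast_nonneg (α := ℝ) (m + 1)) (by linarith : (0 : ℝ) ≤ C₀)]
  refine ⟨(8 * A) ^ (m + 1), one_le_pow₀ (by linarith), fun K _ _ hn Y hY s hs => ?_⟩
  classical
  obtain ⟨v, -, hliR, hv⟩ := hshape K hn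
  have hD : 1 ≤ |(discr K : ℝ)| := by
    rw [← Int.cast_abs]
    exact_mod_cast Int.one_le_abs (discr_ne_zero K)
  have hY1 : 1 ≤ Y := le_trans (Real.one_le_rpow hD (by positivity)) hY
  obtain ⟨B, hB⟩ : ∃ B : Basis (Fin (m + 1)) ℝ (mixedSpace K),
      ∀ k, B k = mixedEmbedding K (v k : K) :=
    ⟨basisOfLinearIndependentOfCardEqFinrank hliR
      (by rw [Fintype.card_fin, mixedEmbedding.finrank, hn]), fun k => by simp⟩
  obtain ⟨f, hf⟩ : ∃ f : InfinitePlace K → ℝ≥0, f = fun _ => (A * Y).toNNReal := ⟨_, rfl⟩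
  have hfund := ZSpan.isAddFundamentalDomain' (latticeBasis K) volume
  have : Countable (Submodule.span ℤ (Set.range (latticeBasis K))).toAddSubgroup := by
    change Countable (Submodule.span ℤ (Set.range (latticeBasis K)))
    infer_instance
  have hlat : ∀ a : 𝓞 K, mixedEmbedding K (a : K) ∈
      Submodule.span ℤ (Set.range (latticeBasis K)) := fun a =>
    (mem_span_latticeBasis K).2 ⟨a, rfl⟩
  have hcover : ∀ x : mixedSpace K,
      ∃ t : Finset (Submodule.span ℤ (Set.range (latticeBasis K))).toAddSubgroup,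
        s.card ≤ t.card ∧ ∀ g ∈ t, x ∈ g +ᵥ convexBodyLT K f := by
    intro x
    obtain ⟨g₀, hg₀⟩ : ∃ g₀ : 𝓞 K, g₀ = ∑ k, ⌊B.repr x k⌋ • v k := ⟨_, rfl⟩
    refine ⟨s.image fun a => ⟨mixedEmbedding K ((g₀ - a : 𝓞 K) : K), hlat _⟩, ?_, ?_⟩
    · rw [Finset.card_image_of_injective]
      intro a a' e
      have e' := mixedEmbedding_injective K (congrArg Subtype.val e)
      simpa using RingOfIntegers.coe_injective e'
    intro g hg
    obtain ⟨a, ha, rfl⟩ := Finset.mem_image.1 hg
    refine ⟨x - mixedEmbedding K ((g₀ - a : 𝓞 K) : K), ?_,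
      show mixedEmbedding K _ + (x - mixedEmbedding K _) = x from add_sub_cancel _ _⟩
    have hg₀' : mixedEmbedding K (g₀ : K) = ∑ k, (⌊B.repr x k⌋ : ℝ) • B k := by
      rw [hg₀]
      simp only [RingOfIntegers.coe_eq_algebraMap, map_sum, map_zsmul, hB]
      exact Finset.sum_congr rfl fun k _ => (Int.cast_smul_eq_zsmul ℝ _ _).symm
    have hx : x - mixedEmbedding K ((g₀ - a : 𝓞 K) : K) =
        (∑ k, Int.fract (B.repr x k) • B k) + mixedEmbedding K (a : K) := by
      rw [show ((g₀ - a : 𝓞 K) : K) = (g₀ : K) - a from rfl, map_sub, hg₀']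
      have e := B.sum_repr x
      generalize B.repr x = c at e ⊢
      rw [← e]
      simp only [Int.fract, sub_smul, Finset.sum_sub_distrib]
      abel
    have hbound : ∀ w, normAtPlace w (x - mixedEmbedding K ((g₀ - a : 𝓞 K) : K)) < A * Y := by
      intro w
      rw [hx]
      refine lt_of_le_of_lt (normAtPlace_add_le w _ _) ?_
      have h1 : normAtPlace w (∑ k, Int.fract (B.repr x k) • B k) ≤
          ∑ _k : Fin (m + 1), C₀ * Y := by
        refine (Finset.le_sum_of_subadditive (fun y => normAtPlace w y) (map_zero _).le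
          (normAtPlace_add_le w) _ _).trans (Finset.sum_le_sum fun k _ => ?_)
        rw [normAtPlace_smul, Int.abs_fract, hB, normAtPlace_apply]
        refine (mul_le_of_le_one_left (apply_nonneg w _) (Int.fract_lt_one _).le).trans ?_
        refine ((hv k w.embedding).trans' (norm_embedding_eq w _).ge).trans ?_
        exact mul_le_mul_of_nonneg_left hY (by linarith)
      have h2 : normAtPlace w (mixedEmbedding K (a : K)) ≤ Y := by
        rw [normAtPlace_apply, ← norm_embedding_eq]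
        exact hs a ha _
      rw [Finset.sum_const, Finset.card_univ, Fintype.card_fin, nsmul_eq_mul] at h1
      rw [hA, add_mul, mul_assoc]
      linarith
    have hAY : ((A * Y).toNNReal : ℝ) = A * Y := Real.coe_toNNReal _ (by positivity)
    refine ⟨fun w _ => ?_, fun w _ => ?_⟩
    · rw [mem_ball_zero_iff, hf, hAY, ← normAtPlace_apply_of_isReal w.2]
      exact hbound _
    · rw [mem_ball_zero_iff, hf, hAY, ← normAtPlace_apply_of_isComplex w.2]
      exact hbound _
  have h := mul_measure_le_of_cover hfund ((convexBodyLT_convex K f).nullMeasurableSet _) s.card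
    hcover
  rw [convexBodyLT_volume, hf, Finset.prod_pow_eq_pow_sum, sum_mult_eq,
    volume_fundamentalDomain_latticeBasis, hn, ← ENNReal.coe_natCast, ← ENNReal.coe_inv_two,
    ← ENNReal.coe_pow, ← ENNReal.coe_mul, ← ENNReal.coe_mul, ← ENNReal.coe_mul, ENNReal.coe_le_coe,
    ← NNReal.coe_le_coe] at h
  push_cast at h
  rw [Int.norm_eq_abs, Real.coe_toNNReal _ (by positivity : (0 : ℝ) ≤ A * Y)] at h
  have hr : nrComplexPlaces K ≤ m + 1 := by
    rw [← hn, ← card_add_two_mul_card_eq_rank]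
    omega
  have hfac : (2 : ℝ) ^ nrRealPlaces K * Real.pi ^ nrComplexPlaces K ≤ 4 ^ (m + 1) := by
    calc (2 : ℝ) ^ nrRealPlaces K * Real.pi ^ nrComplexPlaces K
        ≤ 4 ^ nrRealPlaces K * 4 ^ nrComplexPlaces K := by
          gcongr
          · norm_num
          · exact Real.pi_le_four
      _ ≤ 4 ^ (m + 1) := by
          rw [← pow_add, ← hn, ← card_add_two_mul_card_eq_rank]
          exact pow_le_pow_right₀ (by norm_num) (by omega)
  obtain ⟨r, hr2⟩ : ∃ r, r = nrComplexPlaces K := ⟨_, rfl⟩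
  rw [← hr2] at h hr hfac
  calc (s.card : ℝ) * Real.sqrt |(discr K : ℝ)|
      = 2 ^ r * ((s.card : ℝ) * ((2⁻¹ : ℝ) ^ r * Real.sqrt |(discr K : ℝ)|)) := by
        rw [inv_pow]; field_simp
    _ ≤ 2 ^ (m + 1) * (4 ^ (m + 1) * (A * Y) ^ (m + 1)) := by
        refine mul_le_mul (pow_le_pow_right₀ one_le_two hr)
          (h.trans (mul_le_mul_of_nonneg_right hfac (by positivity))) (by positivity) (by positivity)
    _ = (8 * A) ^ (m + 1) * Y ^ (m + 1) := by
        rw [← mul_pow, ← mul_pow, ← mul_pow]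
        ring_nf

end FA.TwoTorsionBound

end
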