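import Mathlib.NumberTheory.NumberField.ClassNumber

/-!
# A representative for a class killed by `2`

If `J₀ ^ 2 = (β₀)` then Minkowski, in the box `|γ|_w < T √|β₀|_w`, gives `γ ∈ J₀`; so the class of
`J₀⁻¹` contains `J = γ J₀⁻¹` with `J ^ 2 = (γ ^ 2 / β₀)` of conjugates at most `T ^ 2`.
-/

set_option autoImplicit false

noncomputable section

namespace FA.TwoTorsionBound

open NumberField NumberField.InfinitePlace NumberField.mixedEmbedding Module MeasureTheory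
open scoped nonZeroDivisors ENNReal NNReal

/-- **A small representative.** -/
theorem exists_representative (K : Type) [Field K] [NumberField K]
    {c : ClassGroup (𝓞 K)} (hc : c ^ 2 = 1) :
    ∃ (J : (Ideal (𝓞 K))⁰) (β : 𝓞 K), ClassGroup.mk0 J = c ∧
      (J : Ideal (𝓞 K)) ^ 2 = Ideal.span {β} ∧
      ∀ φ : K →+* ℂ, ‖φ (β : K)‖ ≤ 9 * |(discr K : ℝ)| ^ ((1 : ℝ) / finrank ℚ K) := by
  classical
  obtain ⟨J₀, hJ₀⟩ := ClassGroup.mk0_surjective c⁻¹
  have hJ0 : (J₀ : Ideal (𝓞 K)) ≠ 0 := nonZeroDivisors.coe_ne_zero J₀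
  have hsq : ((J₀ : Ideal (𝓞 K)) ^ 2).IsPrincipal := by
    have h : ClassGroup.mk0 (J₀ * J₀) = 1 := by
      rw [map_mul, hJ₀, ← sq, inv_pow, hc, inv_one]
    rw [show J₀ * J₀ = ⟨(J₀ : Ideal (𝓞 K)) * (J₀ : Ideal (𝓞 K)), mul_mem J₀.2 J₀.2⟩ from
      Subtype.ext (Submonoid.coe_mul _ _ _), ClassGroup.mk0_eq_one_iff (mul_mem J₀.2 J₀.2)] at h
    rw [pow_two]
    exact h
  obtain ⟨β₀, hβ₀⟩ := hsq.principal
  rw [Ideal.submodule_span_eq] at hβ₀
  have hβ₀0 : β₀ ≠ 0 := fun e => pow_ne_zero 2 hJ0 (by rw [hβ₀, e]; simp)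
  obtain ⟨n, hn⟩ : ∃ n, n = finrank ℚ K := ⟨_, rfl⟩
  have hn0 : (0 : ℝ) < n := by rw [hn]; exact Nat.cast_pos.2 finrank_pos
  obtain ⟨T, hT⟩ : ∃ T, T = 3 * |(discr K : ℝ)| ^ ((1 : ℝ) / (2 * n)) := ⟨_, rfl⟩
  have hT0 : 0 ≤ T := hT ▸ by positivity
  have hTn : T ^ n = 3 ^ n * Real.sqrt |(discr K : ℝ)| := by
    rw [hT, mul_pow, ← Real.rpow_natCast (|(discr K : ℝ)| ^ _), ← Real.rpow_mul (abs_nonneg _),
      Real.sqrt_eq_rpow]
    congr 2
    field_simp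
  obtain ⟨f, hf⟩ : ∃ f : InfinitePlace K → ℝ≥0,
      f = fun w => (T * Real.sqrt (w (β₀ : K))).toNNReal := ⟨_, rfl⟩
  have hnorm : ∏ w : InfinitePlace K, w (β₀ : K) ^ mult w =
      ((Ideal.absNorm (J₀ : Ideal (𝓞 K)) : ℝ)) ^ 2 := by
    rw [prod_eq_abs_norm, ← Algebra.coe_norm_int, ← Int.cast_abs, Int.abs_eq_natAbs,
      ← Ideal.absNorm_span_singleton, ← hβ₀, map_pow]
    push_cast
    ring
  have hfprod : ((∏ w, f w ^ mult w : ℝ≥0) : ℝ) = T ^ n * Ideal.absNorm (J₀ : Ideal (𝓞 K)) := by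
    push_cast
    rw [hf]
    simp only [Real.coe_toNNReal _ (mul_nonneg hT0 (Real.sqrt_nonneg _)), mul_pow,
      Finset.prod_mul_distrib]
    rw [Finset.prod_pow_eq_pow_sum, sum_mult_eq, ← hn]
    congr 1
    rw [← Real.sqrt_sq (Nat.cast_nonneg (Ideal.absNorm (J₀ : Ideal (𝓞 K)))), ← hnorm,
      Real.sqrt_eq_rpow, ← Real.finsetProd_rpow _ _ fun w _ => pow_nonneg (apply_nonneg w _) _]
    refine Finset.prod_congr rfl fun w _ => ?_
    rw [Real.sqrt_eq_rpow, ← Real.rpow_natCast, ← Real.rpow_natCast,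
      ← Real.rpow_mul (apply_nonneg w _), ← Real.rpow_mul (apply_nonneg w _), mul_comm]
  have hvol : minkowskiBound K (FractionalIdeal.mk0 K J₀) < volume (convexBodyLT K f) := by
    rw [minkowskiBound, volume_fundamentalDomain_fractionalIdealLatticeBasis,
      volume_fundamentalDomain_latticeBasis, convexBodyLT_volume, mixedEmbedding.finrank, ← hn,
      FractionalIdeal.coe_mk0, FractionalIdeal.coeIdeal_absNorm, Rat.cast_natCast,
      ENNReal.ofReal_natCast]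
    calc (Ideal.absNorm (J₀ : Ideal (𝓞 K)) : ℝ≥0∞) *
          (2⁻¹ ^ nrComplexPlaces K * (NNReal.sqrt ‖discr K‖₊ : ℝ≥0∞)) * 2 ^ n
        ≤ (Ideal.absNorm (J₀ : Ideal (𝓞 K)) : ℝ≥0∞) *
            (1 * (NNReal.sqrt ‖discr K‖₊ : ℝ≥0∞)) * 2 ^ n := by
          gcongr
          exact pow_le_one₀ (by norm_num) (by norm_num)
      _ < 1 * ((∏ w, f w ^ mult w : ℝ≥0) : ℝ≥0∞) := by
          rw [one_mul, one_mul, ← ENNReal.coe_natCast, ← ENNReal.coe_ofNat, ← ENNReal.coe_pow,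
            ← ENNReal.coe_mul, ← ENNReal.coe_mul, ENNReal.coe_lt_coe, ← NNReal.coe_lt_coe, hfprod]
          push_cast
          rw [Int.norm_eq_abs, hTn]
          have h3 : (2 : ℝ) ^ n < 3 ^ n :=
            pow_lt_pow_left₀ (by norm_num) (by norm_num) (by rw [hn]; exact finrank_pos.ne')
          have hN : (0 : ℝ) < Ideal.absNorm (J₀ : Ideal (𝓞 K)) :=
            Nat.cast_pos.2 (Nat.pos_of_ne_zero (Ideal.absNorm_ne_zero_of_nonZeroDivisors J₀))
          have hD : 0 < Real.sqrt |(discr K : ℝ)| :=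
            Real.sqrt_pos.2 (abs_pos.2 (Int.cast_ne_zero.2 (discr_ne_zero K)))
          nlinarith [mul_lt_mul_of_pos_left h3 (mul_pos hN hD)]
      _ ≤ _ := by
          gcongr
          exact_mod_cast one_le_convexBodyLTFactor K
  obtain ⟨γK, hγmem, hγ0, hγw⟩ := exists_ne_zero_mem_ideal_lt K (FractionalIdeal.mk0 K J₀) hvol
  rw [FractionalIdeal.coe_mk0] at hγmem
  obtain ⟨γ, hγ, rfl⟩ := (FractionalIdeal.mem_coeIdeal _).1 hγmem
  obtain ⟨J', hJ'⟩ := (Ideal.dvd_span_singleton (I := (J₀ : Ideal (𝓞 K)))).2 hγ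
  have hγ0' : γ ≠ 0 := fun e => hγ0 (by rw [e, map_zero])
  have hJ'0 : J' ≠ 0 := fun e => hγ0' (by
    rw [e, mul_zero, Ideal.zero_eq_bot, Ideal.span_singleton_eq_bot] at hJ'
    exact hJ')
  obtain ⟨β, hβ⟩ : β₀ ∣ γ ^ 2 := by
    rw [← Ideal.span_singleton_le_span_singleton, ← hβ₀, ← Ideal.span_singleton_pow, hJ', mul_pow]
    exact Ideal.mul_le_left
  refine ⟨⟨J', mem_nonZeroDivisors_of_ne_zero hJ'0⟩, β, ?_, ?_, fun φ => ?_⟩
  · have h : ClassGroup.mk0 J₀ * ClassGroup.mk0 ⟨J', mem_nonZeroDivisors_of_ne_zero hJ'0⟩ = 1 := by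
      rw [← map_mul]
      exact (ClassGroup.mk0_eq_one_iff _).2 ⟨γ, hJ'.symm⟩
    rw [hJ₀, inv_mul_eq_one] at h
    exact h.symm
  · show J' ^ 2 = Ideal.span {β}
    refine mul_left_cancel₀ (pow_ne_zero 2 hJ0) ?_
    rw [← mul_pow, ← hJ', Ideal.span_singleton_pow, hβ, hβ₀, Ideal.span_singleton_mul_span_singleton]
  · obtain ⟨w, hw⟩ : ∃ w, w = InfinitePlace.mk φ := ⟨_, rfl⟩
    have hb0 : 0 < w (β₀ : K) :=
      pos_iff.2 (RingOfIntegers.coe_ne_zero_iff.2 hβ₀0)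
    have h1 : w (γ : K) ≤ T * Real.sqrt (w (β₀ : K)) := by
      refine (hγw w).le.trans_eq ?_
      rw [hf]
      exact Real.coe_toNNReal _ (mul_nonneg hT0 (Real.sqrt_nonneg _))
    have h2 : w (γ : K) ^ 2 = w (β₀ : K) * w (β : K) := by
      rw [← map_pow, ← map_mul, show (γ : K) ^ 2 = ((γ ^ 2 : 𝓞 K) : K) from rfl, hβ]
      rfl
    have h3 : w (β : K) ≤ T ^ 2 := by
      refine le_of_mul_le_mul_left ?_ hb0
      rw [← h2]
      refine (pow_le_pow_left₀ (apply_nonneg w _) h1 2).trans_eq ?_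
      rw [mul_pow, Real.sq_sqrt hb0.le, mul_comm]
    subst hw
    refine (InfinitePlace.apply φ _).ge.trans (h3.trans_eq ?_)
    rw [hT, mul_pow, ← Real.rpow_natCast (|(discr K : ℝ)| ^ _), ← Real.rpow_mul (abs_nonneg _), hn]
    congr 1
    · norm_num
    · congr 1
      field_simp
      norm_num

end FA.TwoTorsionBound

end
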