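import Fermat.Agent.Perfect.Transference
import Mathlib.NumberTheory.NumberField.Discriminant.Basic
import Mathlib.LinearAlgebra.Dual.Lemmas

/-!
# The shape of the ring of integers

The products of the first `i + 1` and the first `j + 1` minimal vectors of `O_K` span more than a
hyperplane when `i + j = n - 1`, so the largest minimum is at most the product of the two; with
Minkowski's theorem its conjugates are `O (|D| ^ (1 / n))`.
-/

set_option autoImplicit false
set_option linter.style.haveILetI false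

noncomputable section

namespace FA.TwoTorsionBound

open NumberField Module Matrix FA.Perfect
open FA.Reduction (quad)
open scoped ComplexConjugate

variable {K : Type*} [Field K] [NumberField K] {m : ℕ}

theorem exists_int_basis (hn : finrank ℚ K = m + 1) :
    Nonempty (Free.ChooseBasisIndex ℤ (𝓞 K) ≃ Fin (m + 1)) :=
  ⟨Fintype.equivFinOfCardEq (by
    rw [← finrank_eq_card_chooseBasisIndex, RingOfIntegers.rank, hn])⟩

/-- The form `∑ |φ x| ²` in a basis. -/
def traceGram (b : Fin (m + 1) → K) : Matrix (Fin (m + 1)) (Fin (m + 1)) ℝ :=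
  Matrix.of fun i l => (∑ φ : K →+* ℂ, conj (φ (b i)) * φ (b l)).re

theorem quad_traceGram (b : Fin (m + 1) → K) (x : Fin (m + 1) → ℝ) :
    quad (traceGram b) x = ∑ φ : K →+* ℂ, ‖∑ i, (x i : ℂ) * φ (b i)‖ ^ 2 := by
  simp only [quad, dotProduct, mulVec, traceGram, Matrix.of_apply, Finset.mul_sum,
    Complex.re_sum, Finset.sum_mul]
  simp only [← Complex.normSq_eq_norm_sq]
  have h : ∀ φ : K →+* ℂ, Complex.normSq (∑ i, (x i : ℂ) * φ (b i)) =
      ∑ i, ∑ l, x i * ((conj (φ (b i)) * φ (b l)).re * x l) := fun φ => by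
    rw [← Complex.ofReal_re (Complex.normSq _), Complex.normSq_eq_conj_mul_self, map_sum,
      Finset.sum_mul_sum, Complex.re_sum]
    refine Finset.sum_congr rfl fun i _ => ?_
    rw [Complex.re_sum]
    refine Finset.sum_congr rfl fun l _ => ?_
    rw [map_mul, Complex.conj_ofReal, show (x i : ℂ) * conj (φ (b i)) * ((x l : ℂ) * φ (b l)) =
      ((x i * x l : ℝ) : ℂ) * (conj (φ (b i)) * φ (b l)) by push_cast; ring, Complex.re_ofReal_mul]
    ring
  simp only [h]
  exact (Finset.sum_congr rfl fun i _ => Finset.sum_comm).trans Finset.sum_comm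

theorem det_traceGram (hn : finrank ℚ K = m + 1) (b : Fin (m + 1) → K) :
    (traceGram b).det = |((Algebra.discr ℚ b : ℚ) : ℝ)| := by
  classical
  obtain ⟨e⟩ : Nonempty (Fin (m + 1) ≃ (K →+* ℂ)) :=
    ⟨(Fintype.equivFinOfCardEq (by rw [Embeddings.card, hn])).symm⟩
  obtain ⟨M, hM⟩ : ∃ M, M = Algebra.embeddingsMatrixReindex ℚ ℂ b
      (e.trans (RingHom.equivRatAlgHom K ℂ)) := ⟨_, rfl⟩
  have hentry : ∀ i j, M i j = e j (b i) := fun i j => by rw [hM]; rfl
  have hconj : ∀ i l, conj (∑ φ : K →+* ℂ, conj (φ (b i)) * φ (b l)) =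
      ∑ φ : K →+* ℂ, conj (φ (b i)) * φ (b l) := fun i l => by
    rw [map_sum]
    refine Fintype.sum_bijective ComplexEmbedding.conjugate
      (star_involutive.bijective) _ _ fun φ => ?_
    simp [map_mul]
  have hG : (traceGram b).map Complex.ofRealHom = M.map (starRingEnd ℂ) * Mᵀ := by
    ext i l
    rw [Matrix.map_apply, Matrix.mul_apply, traceGram, Matrix.of_apply]
    simp only [Complex.ofRealHom_eq_coe, Complex.conj_eq_iff_re.1 (hconj i l), Matrix.map_apply,
      Matrix.transpose_apply, hentry]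
    exact (e.sum_comp fun φ => conj (φ (b i)) * φ (b l)).symm
  have h1 := congrArg Matrix.det hG
  rw [← RingHom.mapMatrix_apply, ← RingHom.map_det, det_mul, det_transpose,
    ← RingHom.mapMatrix_apply, ← RingHom.map_det, ← Complex.normSq_eq_conj_mul_self,
    Complex.ofRealHom_eq_coe, Complex.ofReal_inj] at h1
  have h2 := Algebra.discr_eq_det_embeddingsMatrixReindex_pow_two ℚ ℂ b
    (e.trans (RingHom.equivRatAlgHom K ℂ))
  rw [← hM, eq_ratCast] at h2
  rw [h1, Complex.normSq_eq_norm_sq, ← norm_pow, ← h2, ← Complex.ofReal_ratCast,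
    Complex.norm_real, Real.norm_eq_abs]

/-- **The shape theorem.** -/
theorem exists_shape (m : ℕ) : ∃ C : ℝ, 1 ≤ C ∧ ∀ (K : Type) [Field K] [NumberField K],
    finrank ℚ K = m + 1 → ∃ v : Fin (m + 1) → 𝓞 K,
      LinearIndependent ℚ (fun k => (v k : K)) ∧
      LinearIndependent ℝ (fun k => mixedEmbedding K (v k : K)) ∧
      ∀ k, ∀ φ : K →+* ℂ, ‖φ (v k : K)‖ ≤
        C * |(discr K : ℝ)| ^ ((1 : ℝ) / (m + 1 : ℕ)) := by
  obtain ⟨γ, hγ⟩ : ∃ γ, γ = Real.sqrt ((4 / 3 : ℝ) ^ (m * (m + 1))) := ⟨_, rfl⟩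
  have hγ1 : 1 ≤ γ := hγ ▸ Real.one_le_sqrt.2 (one_le_pow₀ (by norm_num))
  refine ⟨γ ^ ((1 : ℝ) / (m + 1 : ℕ)), Real.one_le_rpow hγ1 (by positivity), fun K _ _ hn => ?_⟩
  classical
  obtain ⟨σ⟩ := exists_int_basis hn
  obtain ⟨b, hb⟩ : ∃ b, b = (RingOfIntegers.basis K).reindex σ := ⟨_, rfl⟩
  obtain ⟨bK, hbK⟩ : ∃ bK, bK = (integralBasis K).reindex σ := ⟨_, rfl⟩
  have hbb : ∀ i, bK i = (b i : K) := fun i => by
    rw [hb, hbK, Basis.reindex_apply, Basis.reindex_apply, integralBasis_apply]
  obtain ⟨el, hel⟩ : ∃ el : (Fin (m + 1) → ℤ) → 𝓞 K, ∀ u, el u = ∑ i, u i • b i :=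
    ⟨_, fun _ => rfl⟩
  obtain ⟨P, hP⟩ : ∃ P, P = traceGram (⇑bK) := ⟨_, rfl⟩
  have hdisc : ((Algebra.discr ℚ ⇑bK : ℚ) : ℝ) = (discr K : ℝ) := by
    rw [hbK, Basis.coe_reindex, Algebra.discr_reindex, ← coe_discr, Rat.cast_intCast]
  have hdet : P.det = |(discr K : ℝ)| := by rw [hP, det_traceGram hn, hdisc]
  have hD : 0 < |(discr K : ℝ)| := abs_pos.2 (Int.cast_ne_zero.2 (discr_ne_zero K))
  have hpsd : P.PosSemidef := by
    refine Matrix.PosSemidef.of_dotProduct_mulVec_nonneg ?_ fun x => ?_
    · refine Matrix.ext fun i l => ?_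
      rw [hP, Matrix.conjTranspose_apply, star_trivial, traceGram, Matrix.of_apply,
        Matrix.of_apply, Complex.re_sum, Complex.re_sum]
      refine Finset.sum_congr rfl fun φ _ => ?_
      rw [← Complex.conj_re, map_mul, Complex.conj_conj, mul_comm]
    · rw [star_trivial]
      show 0 ≤ quad P x
      rw [hP, quad_traceGram]
      exact Finset.sum_nonneg fun φ _ => sq_nonneg _
  have hpos : P.PosDef := hpsd.posDef_iff_det_ne_zero.2 (hdet ▸ hD.ne')
  have hcoe : ∀ u, (el u : K) = ∑ i, u i • bK i := fun u => by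
    rw [hel]
    simp only [RingOfIntegers.coe_eq_algebraMap, map_sum, map_zsmul, hbb]
  have hrep : ∀ u l, bK.repr (el u : K) l = (u l : ℚ) := fun u l => by
    rw [hcoe, map_sum, Finsupp.coe_finsetSum, Finset.sum_apply]
    simp only [map_zsmul, Basis.repr_self]
    simp [Finsupp.single_apply]
  have hval : ∀ u, ival P u = ∑ φ : K →+* ℂ, ‖φ (el u : K)‖ ^ 2 := fun u => by
    rw [FA.Perfect.ival, hP, quad_traceGram]
    refine Finset.sum_congr rfl fun φ _ => ?_
    rw [hcoe, map_sum φ]
    refine congrArg (fun z : ℂ => ‖z‖ ^ 2) (Finset.sum_congr rfl fun i _ => ?_)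
    rw [zsmul_eq_mul, map_mul, map_intCast, Complex.ofReal_intCast]
  obtain ⟨v, hv⟩ := exists_minimaFamily hpos
  have hmono : ∀ a i, a ≤ i → ival P (v a) ≤ ival P (v i) := fun a i h => hv.2.1 h
  -- the rational basis
  have hliQ : LinearIndependent ℚ (fun k => (el (v k) : K)) := by
    rw [Fintype.linearIndependent_iff]
    intro g hg k
    have h1 : ∀ i, ∑ k, g k * (v k i : ℚ) = 0 := fun i => by
      have h := congrArg (fun z => bK.repr z i) hg
      simp only [map_sum, map_smul, map_zero, Finsupp.coe_finsetSum, Finset.sum_apply,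
        Finsupp.coe_smul, Pi.smul_apply, smul_eq_mul, Finsupp.coe_zero, Pi.zero_apply] at h
      refine Eq.trans (Finset.sum_congr rfl fun k _ => ?_) h
      rw [hrep]
    have h2 : ∑ k, (g k : ℝ) • castVec (v k) = 0 := funext fun i => by
      rw [Finset.sum_apply]
      simpa [castVec] using congrArg (fun q : ℚ => (q : ℝ)) (h1 i)
    exact_mod_cast Fintype.linearIndependent_iff.1 hv.1 (fun k => (g k : ℝ)) h2 k
  have hcard : Fintype.card (Fin (m + 1)) = finrank ℚ K := by rw [Fintype.card_fin, hn]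
  obtain ⟨BQ, hBQ⟩ : ∃ BQ : Basis (Fin (m + 1)) ℚ K, ∀ k, BQ k = (el (v k) : K) :=
    ⟨basisOfLinearIndependentOfCardEqFinrank hliQ hcard, fun k => by simp⟩
  -- products
  have hprod : ∀ i j : Fin (m + 1), (i : ℕ) + j = m →
      ival P (v (Fin.last m)) ≤ ival P (v i) * ival P (v j) := by
    intro i j hij
    obtain ⟨a, ha, c, hc, hne⟩ : ∃ a ≤ i, ∃ c ≤ j,
        BQ.coord (Fin.last m) ((el (v a) : K) * (el (v c) : K)) ≠ 0 := by
      by_contra hall
      push Not at hall
      obtain ⟨U, hU⟩ : ∃ U, U = Submodule.span ℚ (Set.range fun a : Fin (i + 1) =>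
          (el (v (Fin.castLE i.2 a)) : K)) := ⟨_, rfl⟩
      obtain ⟨V, hV⟩ : ∃ V, V = Submodule.span ℚ (Set.range fun c : Fin (j + 1) =>
          (el (v (Fin.castLE j.2 c)) : K)) := ⟨_, rfl⟩
      have hUd : finrank ℚ U = i + 1 := by
        rw [hU]
        exact (finrank_span_eq_card (hliQ.comp _ (Fin.castLE_injective _))).trans (Fintype.card_fin _)
      have hVd : finrank ℚ V = j + 1 := by
        rw [hV]
        exact (finrank_span_eq_card (hliQ.comp _ (Fin.castLE_injective _))).trans (Fintype.card_fin _)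
      obtain ⟨L, hL⟩ : ∃ L : U →ₗ[ℚ] Module.Dual ℚ K, ∀ x y,
          L x y = BQ.coord (Fin.last m) ((x : K) * y) :=
        ⟨((LinearMap.mul ℚ K).compr₂ (BQ.coord (Fin.last m))).comp U.subtype, fun _ _ => rfl⟩
      have hLinj : Function.Injective L := by
        refine (injective_iff_map_eq_zero L).2 fun x hx => ?_
        by_contra hx0
        have h := hL x ((x : K)⁻¹ * BQ (Fin.last m))
        rw [hx, LinearMap.zero_apply, mul_inv_cancel_left₀ (by simpa using hx0),
          Basis.coord_apply, Basis.repr_self, Finsupp.single_eq_same] at h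
        exact zero_ne_one h
      have hrange : LinearMap.range L ≤ V.dualAnnihilator := by
        rintro _ ⟨x, rfl⟩
        rw [Submodule.mem_dualAnnihilator]
        intro y hy
        rw [hL]
        obtain ⟨x, hx⟩ := x
        show BQ.coord (Fin.last m) (x * y) = 0
        rw [hU] at hx
        induction hx using Submodule.span_induction with
        | zero => rw [zero_mul, map_zero]
        | add u w _ _ hu hw => rw [add_mul, map_add, hu, hw, add_zero]
        | smul q u _ hu => rw [smul_mul_assoc, map_smul, hu, smul_zero]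
        | mem u hu =>
          obtain ⟨a, rfl⟩ := hu
          rw [hV] at hy
          induction hy using Submodule.span_induction with
          | zero => rw [mul_zero, map_zero]
          | add u w _ _ hu hw => rw [mul_add, map_add, hu, hw, add_zero]
          | smul q u _ hu => rw [mul_smul_comm, map_smul, hu, smul_zero]
          | mem w hw =>
            obtain ⟨c, rfl⟩ := hw
            exact hall _ (Fin.le_def.2 (Nat.le_of_lt_succ a.2)) _
              (Fin.le_def.2 (Nat.le_of_lt_succ c.2))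
      have h1 := Submodule.finrank_mono hrange
      rw [LinearMap.finrank_range_of_inj hLinj, hUd] at h1
      have h2 := Subspace.finrank_add_finrank_dualAnnihilator_eq V
      rw [hVd, hn] at h2
      omega
    obtain ⟨w, hw⟩ : ∃ w : Fin (m + 1) → ℤ, el w = el (v a) * el (v c) :=
      ⟨fun l => b.repr (el (v a) * el (v c)) l, by rw [hel]; exact b.sum_repr _⟩
    have hout : castVec w ∉ Submodule.span ℝ ((castVec ∘ v) '' {l | l < Fin.last m}) := by
      intro hmem
      -- the rational coordinates of `w`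
      have hq : ∀ l, (w l : ℚ) =
          ∑ k, BQ.repr (el w : K) k * (v k l : ℚ) := fun l => by
        have h := congrArg (fun z => bK.repr z l) (BQ.sum_repr (el w : K))
        simp only [map_sum, map_smul, Finsupp.coe_finsetSum, Finset.sum_apply, Finsupp.coe_smul,
          Pi.smul_apply, smul_eq_mul, hBQ] at h
        simpa only [hrep] using h.symm
      have hwR : castVec w = ∑ k, ((BQ.repr (el w : K) k : ℚ) : ℝ) • (castVec ∘ v) k :=
        funext fun l => by
          rw [Finset.sum_apply]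
          simpa [castVec] using congrArg (fun q : ℚ => (q : ℝ)) (hq l)
      obtain ⟨g, hgsupp, hg⟩ := (Finsupp.mem_span_image_iff_linearCombination ℝ).1 hmem
      rw [Finsupp.linearCombination_apply, Finsupp.sum_fintype g (fun i a => a • (castVec ∘ v) i) (fun _ => zero_smul ℝ _), hwR,
        ← sub_eq_zero, ← Finset.sum_sub_distrib] at hg
      simp only [← sub_smul] at hg
      have h0 := Fintype.linearIndependent_iff.1 hv.1 _ hg (Fin.last m)
      rw [Finsupp.notMem_support_iff.1 fun h =>
        lt_irrefl (Fin.last m) (show Fin.last m < Fin.last m from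
          (Finsupp.mem_supported ℝ g).1 hgsupp h),
        zero_sub, neg_eq_zero, Rat.cast_eq_zero] at h0
      rw [hw, show ((el (v a) * el (v c) : 𝓞 K) : K) = (el (v a) : K) * el (v c) from rfl] at h0
      exact hne h0
    refine (hv.2.2 _ w hout).trans ?_
    refine le_trans ?_ (mul_le_mul (hmono a i ha) (hmono c j hc)
      (by rw [hval]; positivity) (by rw [hval]; positivity))
    rw [hval, hval, hval, hw, Finset.sum_mul_sum]
    refine Finset.sum_le_sum fun φ _ => ?_
    rw [show ((el (v a) * el (v c) : 𝓞 K) : K) = (el (v a) : K) * el (v c) from rfl, map_mul,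
      norm_mul, mul_pow]
    exact Finset.single_le_sum (f := fun ψ : K →+* ℂ =>
      ‖φ (el (v a) : K)‖ ^ 2 * ‖ψ (el (v c) : K)‖ ^ 2) (fun _ _ => by positivity)
      (Finset.mem_univ φ)
  obtain ⟨s, hs⟩ : ∃ s, s = ival P (v (Fin.last m)) := ⟨_, rfl⟩
  have hs0 : 0 ≤ s := by rw [hs, hval]; positivity
  have hbound : s ^ (m + 1) ≤ (γ * |(discr K : ℝ)|) ^ 2 := by
    have h1 : ∏ _k : Fin (m + 1), s ≤ ∏ k : Fin (m + 1), ival P (v k) * ival P (v k.rev) :=
      Finset.prod_le_prod (fun _ _ => hs0) fun k _ => hs ▸ hprod k k.rev (by rw [Fin.val_rev]; omega)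
    rw [Finset.prod_const, Finset.card_univ, Fintype.card_fin, Finset.prod_mul_distrib,
      show ∏ k : Fin (m + 1), ival P (v k.rev) = ∏ k, ival P (v k) from
        Equiv.prod_comp Fin.revPerm fun k => ival P (v k), ← sq] at h1
    refine h1.trans (pow_le_pow_left₀ (Finset.prod_nonneg fun k _ => by rw [hval]; positivity) ?_ 2)
    have h2 := (prod_succMin_bounds hpos fun _ hQ => hermiteInv_le_hermite hQ).2
    simp only [succMin_eq hv] at h2
    rwa [hdet, ← hγ] at h2
  refine ⟨fun k => el (v k), hliQ, ?_, fun k φ => ?_⟩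
  · obtain ⟨LB, hLB⟩ : ∃ LB, LB = (mixedEmbedding.latticeBasis K).reindex σ := ⟨_, rfl⟩
    have hmap : (fun k => mixedEmbedding K (el (v k) : K)) =
        LB.equivFun.symm.toLinearMap ∘ (castVec ∘ v) := funext fun k => by
      simp only [LinearEquiv.coe_coe, Function.comp_apply, Basis.equivFun_symm_apply, castVec,
        hLB, Basis.reindex_apply, mixedEmbedding.latticeBasis_apply, hel, map_sum]
      refine Finset.sum_congr rfl fun i _ => ?_
      rw [zsmul_eq_mul, map_mul, map_intCast, map_mul, map_intCast, hb, Basis.reindex_apply,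
        ← integralBasis_apply, Int.cast_smul_eq_zsmul, zsmul_eq_mul]
    rw [hmap]
    exact hv.1.map' _ (LinearEquiv.ker _)
  · have h1 : ‖φ (el (v k) : K)‖ ^ 2 ≤ s := by
      refine le_trans ?_ ((hmono k _ (Fin.le_last k)).trans hs.ge)
      rw [hval]
      exact Finset.single_le_sum (f := fun ψ : K →+* ℂ => ‖ψ (el (v k) : K)‖ ^ 2)
        (fun _ _ => sq_nonneg _) (Finset.mem_univ φ)
    have h2 : (‖φ (el (v k) : K)‖ ^ (m + 1)) ^ 2 ≤ (γ * |(discr K : ℝ)|) ^ 2 := by
      rw [← pow_mul, mul_comm, pow_mul]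
      exact (pow_le_pow_left₀ (sq_nonneg _) h1 _).trans hbound
    have h3 := (pow_le_pow_iff_left₀ (by positivity) (by positivity) two_ne_zero).1 h2
    rw [← Real.mul_rpow (by linarith) (abs_nonneg _), one_div,
      Real.le_rpow_inv_iff_of_pos (norm_nonneg _) (by positivity) (by positivity),
      Real.rpow_natCast]
    exact h3

end FA.TwoTorsionBound

end
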